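import Fermat.Agent.S15.M1.Num.An
import Fermat.Agent.S15.M1.Unif.ANQ
import Fermat.Agent.S15.M1.Loc.Stable
import Fermat.Agent.S15.M1.Loc.Transport
import Fermat.Agent.S15.Red.Top

/-!
# S15 / M1 / NUM : the moduli bridge `M1Out`

`x` := the place of `FN p` attached to `τ₀` (`AN_Qb`), `a = j(W)`, `b = j(pτ₀)`, `c = Δ_W^{p-1}/ψ⁴` with
`c Δ(τ₀) = p¹² Δ(pτ₀)`.  `Φ_p(a, b) = 0`, `V_p(a, bc) = 0`, so at a multiplicative prime `|bc| = |a|`, i.e.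
`|b| = |a|^p |ψ|⁴`, and `|b| ∈ {|a|^p, |a|^{1/p}}`.
-/

set_option autoImplicit false

noncomputable section

namespace Fermat.Agent.S15.M1.Num

open Polynomial UpperHalfPlane AlgebraicCurve ModularCurve Fermat.Agent.S24 Fermat.Agent.S28
  Fermat.Agent.S24.JLocal Fermat.Agent.S58

local notation "Δ" => ModularForm.discriminant

/-! ### arithmetic in the value group -/

section Arith

variable {K : Type*} [Field K] {Γ₀ : Type*} [LinearOrderedCommGroupWithZero Γ₀]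

theorem val_b_eq (v : Valuation K Γ₀) {a b c D c4 P : K} {p : ℕ} (hp : 1 ≤ p)
    (ha : a = c4 ^ 3 / D) (hc4 : v c4 = 1) (hD : D ≠ 0) (hP : P ≠ 0)
    (hc : c = D ^ (p - 1) / P ^ 4) (hbc : v (b * c) = v a) : v b = v a ^ p * v P ^ 4 := by
  have hd : v D ≠ 0 := (Valuation.ne_zero_iff v).2 hD
  have hπ : v P ≠ 0 := (Valuation.ne_zero_iff v).2 hP
  have hva : v a = (v D)⁻¹ := by rw [ha, map_div₀, map_pow, hc4, one_pow, one_div]
  rw [map_mul, hc, map_div₀, map_pow, map_pow, hva] at hbc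
  rw [hva]
  obtain ⟨n, rfl⟩ : ∃ n, p = n + 1 := ⟨p - 1, by omega⟩
  rw [Nat.add_sub_cancel] at hbc
  have h1 : v b = (v D)⁻¹ * (v P ^ 4 / v D ^ n) := by
    rw [← hbc, mul_assoc, div_mul_div_comm, mul_comm (v D ^ n), div_self
      (mul_ne_zero (pow_ne_zero _ hπ) (pow_ne_zero _ hd)), mul_one]
  rw [h1, pow_succ ((v D)⁻¹) n, inv_pow, div_eq_mul_inv, mul_comm (v P ^ 4), ← mul_assoc,
    mul_comm (v D)⁻¹]

end Arith

/-! ### rational coefficients -/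

section Rat

/-- `Polynomial.induction_on` twice / `ringHom_ext'`. -/
theorem sigma_evK (σ : Kbar ≃ₐ[ℚ] Kbar) (R₀ : ℚ[X][X]) (a m : Kbar) :
    σ (evK a m (R₀.map (mapRingHom (algebraMap ℚ Kbar)))) =
      evK (σ a) (σ m) (R₀.map (mapRingHom (algebraMap ℚ Kbar))) := by
  have h : ((σ : Kbar →+* Kbar).comp (evK a m)).comp
      (mapRingHom (mapRingHom (algebraMap ℚ Kbar))) =
      (evK (σ a) (σ m)).comp (mapRingHom (mapRingHom (algebraMap ℚ Kbar))) := by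
    apply Polynomial.ringHom_ext'
    · apply Polynomial.ringHom_ext'
      · ext
        simp [evK]
      · simp [evK]
    · simp [evK]
  exact congrArg (fun f => f R₀) h

end Rat

/-- a place centred at `(a, b)` on the curve `R(j, y) = 0`: `R(a, b) = 0`. -/
theorem Cen.evK_eq_zero {K F : Type*} [Field K] [Field F] [Algebra K F] {j y : F} {a b : K}
    {x : Place K F} (h : Cen x j y a b) {R : K[X][X]} (hR : evF j y R = 0) : evK a b R = 0 := by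
  by_contra h0
  exact (h.ord_eq_zero h0).1 hR

/-! ### the constant `c` -/

section Const

variable (W : WeierstrassCurve ℤ) (Q : EP W) (p : ℕ)

/-- `c = Δ_W^{p-1}/ψ⁴`. -/
def cW : Kbar := ((W.Δ : ℤ) : Kbar) ^ (p - 1) / Loc.psiProd Q p ^ 4

theorem sigma_jW (σ : S15.GQ) : σ (jW W) = jW W := by
  simp [jW, map_div₀, map_pow, map_intCast]

variable {W Q p}

theorem sigma_cW (hp : 0 < p) (hQ : addOrderOf Q = p) (σ : S15.GQ)
    (hσ : σ • Q ∈ AddSubgroup.zmultiples Q) : σ (cW W Q p) = cW W Q p := by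
  rw [cW, map_div₀, map_pow, map_pow, map_intCast, Loc.psiProd_fixed' hp hQ σ hσ]

end Const

/-! ### the local statement -/

section Local

variable {p : ℕ} [NeZero p]

theorem near_of (hp : p.Prime) (hp5 : 5 ≤ p) (W : WeierstrassCurve ℤ) (hΔ : W.Δ ≠ 0) (Q : EP W)
    (hord : addOrderOf Q = p) {Φ V : Kbar[X][X]} {ζ : Kbarˣ} (hζ : IsPrimitiveRoot ζ p)
    (hΦm : Φ.Monic) (hΦ : Φ.map (aJ p) = ∏ s, (X - C (rootFam p ζ s)))
    (hV : V.map (aJ p) = ∏ s, (X - C (numFam p ζ s))) {b : Kbar}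
    (hb : evK (jW W) b Φ = 0) (hbc : evK (jW W) (b * cW W Q p) V = 0)
    {ℓ : ℕ} (hℓ : ℓ.Prime) (hℓp : ℓ ≠ p) (hℓΔ : (ℓ : ℤ) ∣ W.Δ) (hℓc : ¬ (ℓ : ℤ) ∣ W.c₄)
    (A : ValuationSubring Kbar) (hA : A.LiesOverPrime ℓ) :
    (W.InZeroComponentAt A Q → NearInf A p (jW W) b) ∧
      (¬ W.InZeroComponentAt A Q → NearZero A p (jW W) b) := by
  have hodd : Odd p := hp.odd_of_ne_two (by omega)
  have hM : Loc.Mult W A := Loc.mult_of hℓ hΔ hℓΔ hℓc hA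
  have hpv : A.valuation (p : Kbar) = 1 :=
    Loc.val_natCast_eq_one hℓ hA (fun h => hℓp ((Nat.prime_dvd_prime_iff_eq hℓ hp).1 h))
  have hD0 : ((W.Δ : ℤ) : Kbar) ≠ 0 := by exact_mod_cast hΔ
  have hP0 : Loc.psiProd Q p ≠ 0 := Loc.psiProd_ne_zero hodd hord
  have hva : A.valuation (jW W) = (A.valuation ((W.Δ : ℤ) : Kbar))⁻¹ := by
    rw [jW, map_div₀, map_pow, hM.c₄, one_pow, one_div]
  have hvD0 : A.valuation ((W.Δ : ℤ) : Kbar) ≠ 0 := (Valuation.ne_zero_iff _).2 hD0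
  have ha1 : 1 < A.valuation (jW W) := by
    rw [hva]
    exact (one_lt_inv₀ (zero_lt_iff.2 hvD0)).2 hM.Δ_lt
  have haA : jW W ∉ A := by
    intro h
    exact absurd ((ValuationSubring.valuation_le_one_iff A _).2 h) (not_le.2 ha1)
  obtain ⟨t₀, S⟩ := exists_setup A p haA
  have hζp : ζ ^ p = 1 := hζ.pow_eq_one
  have hPL : PhiLike A.valuation (jBase p Kbar) p Φ (rootFam p ζ) :=
    ⟨hΦm, lead_rootFam_none A p ζ hζp, lead_rootFam_some A p ζ hζp, hΦ⟩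
  have hVL : VLike A.valuation (jBase p Kbar) p V (numFam p ζ) :=
    ⟨lead_numFam A p ζ hζp hpv, hV⟩
  have h1 : A.valuation (b * cW W Q p) = A.valuation (jW W) :=
    hVL.val_eq S (by rw [← evK_eq_ev2]; exact hbc)
  have h2 : A.valuation b = A.valuation (jW W) ^ p * A.valuation (Loc.psiProd Q p) ^ 4 :=
    val_b_eq A.valuation hp.one_le rfl hM.c₄ hD0 hP0 rfl h1
  refine ⟨fun hin => ⟨haA, ?_⟩, fun hout => ⟨haA, ?_⟩⟩
  · rw [h2, hM.val_psiProd_eq_one hodd hpv hord hin, one_pow, mul_one]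
  · have h3 := Loc.val_psiProd_lt_one hp.one_lt hpv hord hout
    rcases hPL.dich S (by rw [← evK_eq_ev2]; exact hb) with h4 | h4
    · exfalso
      have h5 : A.valuation (Loc.psiProd Q p) ^ 4 < 1 := pow_lt_one₀ zero_le h3 (by norm_num)
      have h6 : A.valuation (jW W) ^ p ≠ 0 := pow_ne_zero _ (by
        intro h0
        rw [h0] at ha1
        exact absurd ha1 (not_lt.2 zero_le))
      have h7 : A.valuation b < A.valuation (jW W) ^ p := by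
        rw [h2]
        exact mul_lt_of_lt_one_right (zero_lt_iff.2 h6) h5
      exact absurd h4 h7.ne
    · exact h4

end Local

/-! ### assembly -/

theorem exists_primK (p : ℕ) [NeZero p] : ∃ ζ : Kbarˣ, IsPrimitiveRoot ζ p := by
  obtain ⟨ζ, hζ⟩ := HasEnoughRootsOfUnity.exists_primitiveRoot Kbar p
  exact ⟨hζ.isUnit (NeZero.ne p) |>.unit, IsPrimitiveRoot.coe_units_iff.mp (by simpa using hζ)⟩

/-- `V_p` has rational coefficients (same proof as `exists_VK`). -/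
theorem exists_VQ (p : ℕ) [NeZero p] (hp : p.Prime) (ζ : Kbarˣ) (hζ : IsPrimitiveRoot ζ p) :
    ∃ R₀ : ℚ[X][X], (R₀.map (mapRingHom (algebraMap ℚ Kbar))).map (aJ p) =
      ∏ s, (X - C (numFam p ζ s)) := by
  have hsum := sum_zpow_of_isPrimitiveRoot p hp ζ hζ
  have hP : ∀ n, ∑ s, numFam p ζ s ^ n ∈ subalgJ p Kbar := fun n => by
    obtain ⟨g, hg⟩ := powerSum_mem p ζ statementA hp hsum n 0
    simp only [pow_zero, mul_one] at hg
    rw [hg]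
    exact evBase_mem_subalgJ p Kbar g
  have hc := coeff_prod_X_sub_C_mem (subalgJ p Kbar) (numFam p ζ) hP
  have hl : (∏ s, (X - C (numFam p ζ s))) ∈
      Polynomial.lifts ((aJ p).comp (mapRingHom (algebraMap ℚ Kbar))) := by
    rw [Polynomial.lifts_iff_coeff_lifts]
    intro n
    obtain ⟨g, hg⟩ := hc n
    refine ⟨g, ?_⟩
    rw [← hg]
    show aeval (jBase p Kbar) (g.map (algebraMap ℚ Kbar)) = aeval (jBase p Kbar) g
    rw [aeval_def, aeval_def, eval₂_map]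
    congr 1
    exact Subsingleton.elim _ _
  obtain ⟨R₀, h⟩ := (Polynomial.mem_lifts _).mp hl
  exact ⟨R₀, by rw [Polynomial.map_map]; exact h⟩

theorem m1Out : M1Out := by
  intro p _ hp hp5 W hΔ Q hstab hord hup
  have hodd : Odd p := hp.odd_of_ne_two (by omega)
  obtain ⟨τ₀, hj, hd⟩ := Unif.AN_Qb hp hodd W hΔ Q hord Loc.iotaA
  have hD0 : ((W.Δ : ℤ) : ℂ) ≠ 0 := by exact_mod_cast hΔ
  have hP0 : Loc.psiProd Q p ≠ 0 := Loc.psiProd_ne_zero hodd hord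
  have ha : kleinJ τ₀ = iota (jW W) := by
    rw [jW, map_div₀, map_pow, map_intCast, map_intCast, eq_div_iff hD0, hj]
  obtain ⟨x, b, hpt, hb⟩ := exists_place_tau p τ₀ (jW W) ha
  have hc : iota (cW W Q p) * Δ τ₀ = (p : ℂ) ^ 12 * Δ (mulH p τ₀) := by
    have hP0' : iota (Loc.psiProd Q p) ≠ 0 := (_root_.map_ne_zero S24.iota).2 hP0
    rw [Loc.iotaA_apply] at hd
    rw [cW, map_div₀, map_pow, map_pow, map_intCast, div_mul_eq_mul_div,
      div_eq_iff (pow_ne_zero 4 hP0'), mul_comm, hd]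
    ring
  obtain ⟨ζ, hζ⟩ := exists_primK p
  obtain ⟨Φ, hΦm, hΦ⟩ := exists_PhiK p hp
  obtain ⟨V₀, hV⟩ := exists_VQ p hp ζ hζ
  have hΦ0 : evK (jW W) b Φ = 0 := Phi_zero (hΦ ζ hζ) τ₀ ha hb
  have hV0 := V_zero hV τ₀ ha hb hc
  refine ⟨x, b, ?_, hpt, fun ℓ hℓ hℓp hℓΔ hℓc A hA =>
    near_of hp hp5 W hΔ Q hord hζ hΦm (hΦ ζ hζ) hV hΦ0 hV0 hℓ hℓp hℓΔ hℓc A hA⟩
  intro σ
  obtain ⟨ℓ₀, hℓ₀, hℓ₀p, hℓ₀Δ, hℓ₀c, A₀, hA₀, hin⟩ := hup
  have hy := Red.isPt_smul hpt σ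
  rw [sigma_jW] at hy
  have hΦ1 : evK (jW W) (σ b) Φ = 0 :=
    Cen.evK_eq_zero (⟨hy.ha, hy.hb⟩ : Cen (gal p σ • x) _ _ _ _) (Phi_FN (hΦ ζ hζ))
  have hV1 : evK (jW W) (σ b * cW W Q p)
      (V₀.map (mapRingHom (algebraMap ℚ Kbar))) = 0 := by
    have h := sigma_evK σ V₀ (jW W) (b * cW W Q p)
    rw [hV0, map_zero, sigma_jW, map_mul, sigma_cW hp.pos hord σ (hstab σ)] at h
    exact h.symm
  have n1 := (near_of hp hp5 W hΔ Q hord hζ hΦm (hΦ ζ hζ) hV hΦ0 hV0 hℓ₀ hℓ₀p hℓ₀Δ hℓ₀c A₀ hA₀).1 hin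
  have n2 := (near_of hp hp5 W hΔ Q hord hζ hΦm (hΦ ζ hζ) hV hΦ1 hV1 hℓ₀ hℓ₀p hℓ₀Δ hℓ₀c A₀ hA₀).1 hin
  exact (Red.unique_nearInf' hp hℓ₀ hℓ₀p hA₀ hpt hy n1 n2).symm

end Fermat.Agent.S15.M1.Num
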