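import Fermat.Agent.S24
import Fermat.Agent.S24.PlaceDeg
import Fermat.Agent.GAL.Tors.Dict.AlgAn
import Fermat.Agent.S15.Contracts

/-!
# S15 / M1 / NUM : the place of `FN p` attached to a point `τ` of the upper half plane with algebraic `j(τ)`.
-/

set_option autoImplicit false

noncomputable section

namespace Fermat.Agent.S15.M1.Num

open UpperHalfPlane AlgebraicCurve ModularCurve CongruenceSubgroup
open Fermat.Agent.S24 Fermat.Agent.S24.PointExp Fermat.Agent.S24.FNAdjoin Fermat.Agent.S24.EmbedFN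
  Fermat.Agent.S24.JLocal Fermat.Agent.S24.EmbedPoint Fermat.Agent.GAL.Tors.Dict
open scoped Manifold MatrixGroups

/-- the realisation of `A N`. -/
abbrev real (N : ℕ) [NeZero N] : EmbedPoint.Realisation Kbar (A N) (Gamma0 N) :=
  realisation N (stabiliser_Gamma0 N)

/-- Taylor expansion at `τ`. -/
def tay (N : ℕ) [NeZero N] (τ : ℍ) : FN N →+* LaurentSeries ℂ := ptEmb (FN N) (real N) τ 1

theorem tay_coe (N : ℕ) [NeZero N] (τ : ℍ) (a : A N) :
    tay N τ (a : FN N) = pointE τ ⟨PsiA N a, mdifferentiable_PsiK _⟩ :=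
  AlgAn_ptEmb_one (F := FN N) (real N) τ a

/-- (PT1) the order of the Taylor expansion of `a ∈ A N` is `≥ 0`, and `> 0` iff `a` vanishes at `τ`
(`pointE_coeff_neg`, `pointE_coeff_nat`, `expand_apply`, `constantCoeff_taylor0`, `pull`, `phi_zero`;
`HahnSeries.order` API: `HahnSeries.le_order_iff...`, `HahnSeries.order_le_of_coeff_ne_zero`, `coeff_order_ne_zero`). -/
theorem ordOf_tay_nonneg (N : ℕ) [NeZero N] (τ : ℍ) (a : A N) : 0 ≤ ordOf (tay N τ) (a : FN N) := by
  rw [ordOf, tay_coe]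
  by_cases h0 : pointE τ ⟨PsiA N a, mdifferentiable_PsiK _⟩ = 0
  · rw [h0, HahnSeries.order_zero]
  · by_contra hneg
    push Not at hneg
    exact h0 (HahnSeries.coeff_order_eq_zero.1 (pointE_coeff_neg τ _ hneg))

theorem ordOf_tay_pos_iff (N : ℕ) [NeZero N] (τ : ℍ) (a : A N) (ha : a ≠ 0) :
    0 < ordOf (tay N τ) (a : FN N) ↔ PsiA N a τ = 0 := by
  have hc0 : (tay N τ (a : FN N)).coeff 0 = PsiA N a τ := by
    have h1 := pointE_coeff_nat τ ⟨PsiA N a, mdifferentiable_PsiK _⟩ 0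
    rw [Nat.cast_zero] at h1
    rw [tay_coe, h1, PowerSeries.coeff_zero_eq_constantCoeff_apply, expand_apply,
      constantCoeff_taylor0, pull, phi_zero, ofComplex_apply]
  have ha' : (a : FN N) ≠ 0 := fun h => ha (Subtype.ext h)
  have hs0 : tay N τ (a : FN N) ≠ 0 := (map_ne_zero (tay N τ)).mpr ha'
  have hnn := ordOf_tay_nonneg N τ a
  rw [ordOf] at hnn ⊢
  rw [← hc0]
  constructor
  · intro h
    exact HahnSeries.coeff_eq_zero_of_lt_order h
  · intro h
    rcases hnn.lt_or_eq with h1 | h1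
    · exact h1
    · exfalso
      apply hs0
      apply HahnSeries.coeff_order_eq_zero.1
      rw [← h1]
      exact h

/-- (PT2) **the place at `τ`**: `exists_place_of_hom (k := Kbar) (tay N τ) (jF N - a)`; its valuation ring is
`ringOf (tay N τ)` and `ordOf (tay N τ) f = M * x.ord f`, `M > 0`. -/
theorem exists_place_tay (N : ℕ) [NeZero N] (τ : ℍ) (a : Kbar) (ha : kleinJ τ = iota a) :
    ∃ (x : Place Kbar (FN N)) (M : ℤ), 0 < M ∧ ∀ f : FN N, f ≠ 0 → ordOf (tay N τ) f = M * x.ord f := by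
  have htr := transcendental_jF N
  have hne : jF N - algebraMap Kbar (FN N) a ≠ 0 := by
    intro h
    apply htr
    rw [sub_eq_zero.1 h]
    exact isAlgebraic_algebraMap a
  have hyc : (((⟨jF N, jF_mem_A N⟩ : A N) - algebraMap Kbar (A N) a : A N) : FN N) =
      jF N - algebraMap Kbar (FN N) a := rfl
  have hy0 : ((⟨jF N, jF_mem_A N⟩ : A N) - algebraMap Kbar (A N) a : A N) ≠ 0 := by
    intro h
    apply hne
    rw [← hyc, h]
    rfl
  have hpos : 0 < ordOf (tay N τ) (jF N - algebraMap Kbar (FN N) a) := by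
    rw [← hyc, ordOf_tay_pos_iff N τ _ hy0, map_sub, Pi.sub_apply, EmbedFN.PsiA_jF,
      EmbedFN.PsiA_algebraMap, ha, sub_self]
  obtain ⟨x, M, hM, -, hx⟩ := exists_place_of_hom (k := Kbar) (tay N τ)
    (jF N - algebraMap Kbar (FN N) a) hpos.ne'
  exact ⟨x, M, hM, hx⟩

/-- (PT3) values: for `f ∈ A N` there is `e ∈ Kbar` with `f(τ) = iota e` and `f - e` vanishes at `x`
(`S24.exists_const_of_mem (jF N) (transcendental_jF N)` with `finiteDimensional_jF N`; then PT1). -/
theorem exists_value (N : ℕ) [NeZero N] (τ : ℍ) {x : Place Kbar (FN N)} {M : ℤ} (hM : 0 < M)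
    (hx : ∀ f : FN N, f ≠ 0 → ordOf (tay N τ) f = M * x.ord f) (f : A N)
    (hf : ∀ e : Kbar, (f : FN N) ≠ algebraMap Kbar (FN N) e) :
    ∃ e : Kbar, PsiA N f τ = iota e ∧ 0 < x.ord ((f : FN N) - algebraMap Kbar (FN N) e) := by
  have hf0 : (f : FN N) ≠ 0 := by
    intro h
    exact hf 0 (by rw [h, map_zero])
  have hord : 0 ≤ x.ord (f : FN N) := by
    have h1 := ordOf_tay_nonneg N τ f
    rw [hx _ hf0] at h1
    exact (mul_nonneg_iff_of_pos_left hM).1 h1
  have := finiteDimensional_jF N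
  obtain ⟨e, he | he⟩ := Fermat.Agent.S24.exists_const_of_mem (jF N) (transcendental_jF N) x
    (f : FN N) (Fermat.Agent.S24.mem_of_ord_nonneg x hf0 hord)
  · exact absurd he (hf e)
  refine ⟨e, ?_, he⟩
  have hyc : ((f - algebraMap Kbar (A N) e : A N) : FN N) =
      (f : FN N) - algebraMap Kbar (FN N) e := rfl
  have hne : (f : FN N) - algebraMap Kbar (FN N) e ≠ 0 := sub_ne_zero.2 (hf e)
  have hy0 : (f - algebraMap Kbar (A N) e : A N) ≠ 0 := by
    intro h
    apply hne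
    rw [← hyc, h]
    rfl
  have hpos : 0 < ordOf (tay N τ) ((f - algebraMap Kbar (A N) e : A N) : FN N) := by
    rw [hyc, hx _ hne]
    exact mul_pos hM he
  rw [ordOf_tay_pos_iff N τ _ hy0, map_sub, Pi.sub_apply, EmbedFN.PsiA_algebraMap] at hpos
  exact sub_eq_zero.1 hpos

/-- `j(q^d)` is not a constant. -/
theorem jd_ne_const (N d : ℕ) [NeZero N] [NeZero d] (hd : d ∣ N) (e : Kbar) :
    FNAdjoin.jd N d hd ≠ algebraMap Kbar (FN N) e := by
  intro h
  have h1 := congrArg (fun z : FN N => ((z : LaurentSeries Kbar)).coeff ((d : ℤ) * (-1))) h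
  simp only [FNAdjoin.coe_jd, coeffEmb_coeff, qExpand_coeff_mul, coeff_jq_neg_one, map_one] at h1
  have h2 : ((algebraMap Kbar (FN N) e : FN N) : LaurentSeries Kbar) =
      algebraMap Kbar (LaurentSeries Kbar) e := rfl
  rw [h2, algebraMap_laurentSeries_eq_single, HahnSeries.coeff_single_of_ne] at h1
  · exact one_ne_zero h1
  · have hd0 : (d : ℤ) ≠ 0 := by exact_mod_cast NeZero.ne d
    simpa using hd0

/-- **PT**: the place at `τ`, with its two coordinates. -/
theorem exists_place_tau (p : ℕ) [NeZero p] (τ : ℍ) (a : Kbar) (ha : kleinJ τ = iota a) :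
    ∃ (x : Place Kbar (FN p)) (b : Kbar), IsPt p x a b ∧ iota b = kleinJ (mulH p τ) := by
  obtain ⟨x, M, hM, hx⟩ := exists_place_tay p τ a ha
  obtain ⟨a', ha', hxa⟩ := exists_value p τ hM hx ⟨FNAdjoin.jd p 1 (one_dvd p), jd_mem_A p 1 (one_dvd p)⟩
    (jd_ne_const p 1 (one_dvd p))
  obtain ⟨b, hb, hxb⟩ := exists_value p τ hM hx ⟨FNAdjoin.jd p p dvd_rfl, jd_mem_A p p dvd_rfl⟩
    (jd_ne_const p p dvd_rfl)
  rw [EmbedFN.PsiA_jd, mulH_one, ha] at ha'
  have haa : a = a' := iota.injective ha'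
  rw [EmbedFN.PsiA_jd] at hb
  refine ⟨x, b, ⟨?_, hxb⟩, hb.symm⟩
  rw [haa, ← FNAdjoin.jd_one]
  exact hxa

end Fermat.Agent.S15.M1.Num
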