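import Fermat.Agent.S15.M1.Num.Poly
import Fermat.Agent.S15.M1.Num.PT
import Fermat.Agent.S36R.KS.JIdentity
import Fermat.Agent.GAL.Igusa.LevelDeg

/-!
# S15 / M1 / NUM : from identities of `q`-expansions to identities of values at `τ`.

`Φ_p(j(τ), j(pτ)) = 0`, `V_p(j(τ), p¹² j(pτ) Δ(pτ)/Δ(τ)) = 0`, and `Φ_p(j, j_p) = 0` in `FN p`.
-/

set_option autoImplicit false

noncomputable section

namespace Fermat.Agent.S15.M1.Num

open Polynomial UpperHalfPlane ModularCurve Fermat.Agent.S24 Fermat.Agent.S28 Fermat.Agent.S24.JLocal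

local notation "𝕢" => Function.Periodic.qParam
local notation "Δ" => ModularForm.discriminant

/-! ### `1/Δ` converges -/

section Conv

/-- `y := single (-1) 1 * ofPowerSeries (taylor0 g)`, `g q := (eulerFn q ^ 24)⁻¹` (differentiable on the unit ball:
`differentiableOn_eulerFn`, `eulerFn` does not vanish there).  `IsConv y` (`isConv_single`, `isConv_taylor0`),
`DlL ℂ * y = 1` by `eq_of_evalAt_eq` (`S36R.KS.JIdentity_DlL_eq`, `evalAt_mul`, `evalAt_single`, `evalAt_taylor0`), so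
`DlLinv ℂ = DlLinv ℂ * (DlL ℂ * y) = y` (`DlL_mul_DlLinv`).  Model: `S48/Full/WFac.lean` (`isConv_wFac`). -/
theorem isConv_DlLinv : IsConv (DlLinv ℂ) := by
  have hd : DifferentiableOn ℂ (fun q => (eulerFn q ^ 24)⁻¹) (Metric.ball 0 1) := by
    refine DifferentiableOn.inv (differentiableOn_eulerFn.pow 24) ?_
    intro q hq
    exact pow_ne_zero _ (eulerFn_ne_zero (by simpa using hq))
  have h1 : taylor0 (eulerFn ^ 24) * taylor0 (fun q => (eulerFn q ^ 24)⁻¹) = 1 := by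
    rw [← taylor0_mul (analyticAt_eulerFn.pow 24)
      (hd.analyticAt (Metric.ball_mem_nhds 0 one_pos)), ← taylor0_one]
    apply taylor0_congr
    filter_upwards [Metric.ball_mem_nhds (0 : ℂ) one_pos] with q hq
    have := pow_ne_zero 24 (eulerFn_ne_zero (q := q) (by simpa using hq))
    simp only [Pi.mul_apply, Pi.pow_apply, Pi.one_apply]
    exact mul_inv_cancel₀ this
  have h2 : S28.DlL ℂ * (HahnSeries.single (-1 : ℤ) 1 *
      HahnSeries.ofPowerSeries ℤ ℂ (taylor0 (fun q => (eulerFn q ^ 24)⁻¹))) = 1 := by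
    rw [S36R.KS.JIdentity_DlL_eq, mul_mul_mul_comm, HahnSeries.single_mul_single, ← map_mul, h1,
      map_one]
    simp
  have h3 : S28.DlLinv ℂ = HahnSeries.single (-1 : ℤ) 1 *
      HahnSeries.ofPowerSeries ℤ ℂ (taylor0 (fun q => (eulerFn q ^ 24)⁻¹)) := by
    have h4 := S28.DlL_mul_DlLinv (Λ := ℂ)
    have hne : S28.DlL ℂ ≠ 0 := by
      intro h0
      rw [h0, zero_mul] at h4
      exact zero_ne_one h4
    exact mul_left_cancel₀ hne (h4.trans h2.symm)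
  rw [h3]
  exact (isConv_single _ _).mul (isConv_taylor0 hd)

/-- `evalAt_mul`, `DlL_mul_DlLinv`, `evalAt_one`, `S36R.KS.evalAt_DlL`, `S36R.KS.isConv_DlL`. -/
theorem evalAt_DlLinv (τ : ℍ) : evalAt (𝕢 1 τ) (DlLinv ℂ) = (Δ τ)⁻¹ := by
  have hq : 𝕢 1 (τ : ℂ) ≠ 0 := Function.Periodic.qParam_ne_zero _
  have hq1 : ‖𝕢 1 (τ : ℂ)‖ < 1 := Function.Periodic.norm_qParam_lt_one one_pos τ.im_pos
  have h := evalAt_mul S36R.KS.isConv_DlL isConv_DlLinv hq hq1
  rw [DlL_mul_DlLinv, evalAt_one, S36R.KS.evalAt_DlL] at h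
  exact eq_inv_of_mul_eq_one_right h.symm

end Conv

/-! ### the series `μ = p¹² E₄(q^p)³/Δ(q) = p¹² j(q^p) Δ(q^p)/Δ(q)` -/

section Mu

variable (p : ℕ) [NeZero p]

/-- `μ`. -/
def muSer : LaurentSeries Kbar :=
  (p : LaurentSeries Kbar) ^ 12 * qExpand Kbar p (toL Kbar E3) * DlLinv Kbar

theorem numFam_none (ζ : Kbarˣ) : numFam p ζ none = qExpand Kbar p (muSer p) := by
  rw [numFam, muSer, map_mul, map_mul, map_pow, map_natCast]

theorem rootFam_none (ζ : Kbarˣ) : rootFam p ζ none = qExpand Kbar p (jBase p Kbar) := rfl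

theorem jd_eq_jBase : S24.jd p = jBase p Kbar := by
  rw [S24.jd, FNAdjoin.coeffEmb_qExpand, GAL.Igusa.LevelDeg_coeffEmb_jq, jBase]

theorem An_jd_one : S24.jd 1 = jqModC Kbar := by
  rw [jd_eq_jBase, jBase, qExpand_one_apply]

theorem jqModC_mem_convK : jqModC Kbar ∈ convK := by
  rw [← An_jd_one]
  exact jd_mem_convK 1

theorem PsiK_jqModC (τ : ℍ) : PsiK ⟨jqModC Kbar, jqModC_mem_convK⟩ τ = kleinJ τ := by
  have e : (⟨jqModC Kbar, jqModC_mem_convK⟩ : convK) = ⟨S24.jd 1, jd_mem_convK 1⟩ :=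
    Subtype.ext An_jd_one.symm
  rw [e, PsiK_jd' 1 τ, EmbedFN.mulH_one]

theorem jBase_mem_convK : jBase p Kbar ∈ convK := by
  rw [← jd_eq_jBase]
  exact jd_mem_convK p

theorem PsiK_jBase (τ : ℍ) : PsiK ⟨jBase p Kbar, jBase_mem_convK p⟩ τ = kleinJ (mulH p τ) := by
  rw [← PsiK_jd' p τ]
  have e : (⟨jBase p Kbar, jBase_mem_convK p⟩ : convK) = ⟨S24.jd p, jd_mem_convK p⟩ :=
    Subtype.ext (jd_eq_jBase p).symm
  rw [e]

/-- `toL Kbar E3 = jqModC Kbar * DlL Kbar` (`jqModC_mul_DlL`). -/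
theorem muSer_eq : muSer p =
    (p : LaurentSeries Kbar) ^ 12 * jBase p Kbar * qExpand Kbar p (DlL Kbar) * DlLinv Kbar := by
  rw [muSer, ← jqModC_mul_DlL, map_mul, jBase]
  ring

/-- `mem_convK`, `coeffMap_DlL`, `S36R.KS.isConv_DlL`. -/
theorem DlL_mem_convK : DlL Kbar ∈ convK := by
  rw [mem_convK, coeffMap_DlL]
  exact S36R.KS.isConv_DlL

theorem DlLinv_mem_convK : DlLinv Kbar ∈ convK := by
  rw [mem_convK, coeffMap_DlLinv]
  exact isConv_DlLinv

theorem qExpand_DlL_mem_convK : qExpand Kbar p (DlL Kbar) ∈ convK := by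
  rw [mem_convK, coeffMap_qExpand, coeffMap_DlL]
  exact S36R.KS.isConv_DlL.qExpand p

theorem PsiK_DlLinv (τ : ℍ) : PsiK ⟨DlLinv Kbar, DlLinv_mem_convK⟩ τ = (Δ τ)⁻¹ := by
  rw [PsiK_apply]
  show evalAt _ (coeffMap iota (DlLinv Kbar)) = _
  rw [coeffMap_DlLinv, evalAt_DlLinv]

/-- `evalAt_qExpand`, `𝕢 1 τ ^ p = 𝕢 1 (mulH p τ)` (as in `S24.PsiK_jd`), `S36R.KS.evalAt_DlL`. -/
theorem PsiK_qExpand_DlL (τ : ℍ) :
    PsiK ⟨qExpand Kbar p (DlL Kbar), qExpand_DlL_mem_convK p⟩ τ = Δ (mulH p τ) := by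
  rw [PsiK_apply]
  show evalAt _ (coeffMap iota (qExpand Kbar p (DlL Kbar))) = _
  rw [coeffMap_qExpand, coeffMap_DlL, evalAt_qExpand, ← S36R.KS.evalAt_DlL (mulH p τ)]
  congr 1
  simp only [Function.Periodic.qParam, coe_mulH]
  rw [← Complex.exp_nat_mul]
  congr 1
  simp only [Complex.ofReal_one, div_one]
  ring

theorem muSer_mem_convK : muSer p ∈ convK := by
  rw [muSer_eq]
  exact convK.mul_mem (convK.mul_mem (convK.mul_mem (convK.pow_mem (natCast_mem _ _) 12)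
    (jBase_mem_convK p)) (qExpand_DlL_mem_convK p)) DlLinv_mem_convK

/-- `muSer_eq`; `⟨muSer p, _⟩ = (p : convK)^12 * ⟨jBase, _⟩ * ⟨qExpand DlL, _⟩ * ⟨DlLinv, _⟩` (`Subtype.ext`), `map_mul`,
`Pi.mul_apply`, `map_pow`, `map_natCast`. -/
theorem PsiK_muSer (τ : ℍ) : PsiK ⟨muSer p, muSer_mem_convK p⟩ τ =
    (p : ℂ) ^ 12 * kleinJ (mulH p τ) * Δ (mulH p τ) * (Δ τ)⁻¹ := by
  have e : (⟨muSer p, muSer_mem_convK p⟩ : convK) =
      (p : convK) ^ 12 * ⟨jBase p Kbar, jBase_mem_convK p⟩ *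
        ⟨qExpand Kbar p (DlL Kbar), qExpand_DlL_mem_convK p⟩ * ⟨DlLinv Kbar, DlLinv_mem_convK⟩ := by
    apply Subtype.ext
    show muSer p = _
    rw [muSer_eq]
    rfl
  rw [e, map_mul, map_mul, map_mul, map_pow, map_natCast]
  simp only [Pi.mul_apply, Pi.pow_apply, Pi.natCast_apply]
  rw [PsiK_jBase, PsiK_qExpand_DlL, PsiK_DlLinv]

end Mu

/-! ### polynomial identities -/

section Ident

variable (p : ℕ) [NeZero p]

/-- algebra homomorphisms commute with the evaluation of polynomials. -/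
theorem An_map_evF {K F F' : Type*} [Field K] [Field F] [Field F'] [Algebra K F] [Algebra K F']
    (f : F →ₐ[K] F') (j y : F) (R : K[X][X]) : f (evF j y R) = evF (f j) (f y) R := by
  have h : ((f : F →+* F').comp (evF (K := K) j y)) = evF (K := K) (f j) (f y) := by
    apply Polynomial.ringHom_ext'
    · apply Polynomial.ringHom_ext'
      · ext c
        simp [evF]
      · simp [evF]
    · simp [evF]
  exact DFunLike.congr_fun h R

/-- a root of the factorised polynomial (`evF`, `coe_eval₂RingHom`, `← eval_map`, `h`, `eval_prod`,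
`Finset.prod_eq_zero (Finset.mem_univ i)`). -/
theorem evF_of_fac {ι : Type*} [Fintype ι] {R : Kbar[X][X]} {J : LaurentSeries Kbar}
    (r : ι → LaurentSeries Kbar)
    (h : R.map ((aeval J : Kbar[X] →ₐ[Kbar] LaurentSeries Kbar) : Kbar[X] →+* LaurentSeries Kbar) =
      ∏ i, (X - C (r i))) (i : ι) : evF J (r i) R = 0 := by
  rw [evF, coe_eval₂RingHom, ← eval_map, h, eval_prod]
  exact Finset.prod_eq_zero (Finset.mem_univ i) (by simp)

/-- `q ↦ q^p` commutes with the evaluation of polynomials (two ring homs `Kbar[X][X] → Kbar((q))` which agree on `C (C c)`,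
`C X`, `X`: `Polynomial.ringHom_ext'`/`Polynomial.ringHom_ext`; `qExpand Kbar p (algebraMap c) = algebraMap c`). -/
theorem evF_qExpand (s₁ s₂ : LaurentSeries Kbar) (R : Kbar[X][X]) :
    evF (qExpand Kbar p s₁) (qExpand Kbar p s₂) R = qExpand Kbar p (evF s₁ s₂ R) := by
  have h := An_map_evF (qExpandAlgHomC Kbar p) s₁ s₂ R
  simp only [qExpandAlgHomC_apply] at h
  exact h.symm

/-- abstract form of `evK_of_series`. -/
theorem An_evK_abs {K S L T : Type*} [Field K] [CommRing S] [Algebra K S] [Field L] [Algebra K L]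
    [CommRing T] (v : S →ₐ[K] L) (hv : Function.Injective v) (φ : S →+* T) (ι : K →+* T)
    (hι : Function.Injective ι) (hφ : ∀ c, φ (algebraMap K S c) = ι c) {R : K[X][X]} {x₁ x₂ : S}
    (hR : evF (v x₁) (v x₂) R = 0) {a m : K} (ha : φ x₁ = ι a) (hm : φ x₂ = ι m) :
    evK a m R = 0 := by
  have h1 : (v : S →+* L) (eval₂ ((aeval x₁ : K[X] →ₐ[K] S) : K[X] →+* S) x₂ R) =
      evF (v x₁) (v x₂) R := by
    rw [evF, coe_eval₂RingHom, Polynomial.hom_eval₂]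
    congr 1
    rw [aeval_algHom]
    rfl
  have h2 : eval₂ ((aeval x₁ : K[X] →ₐ[K] S) : K[X] →+* S) x₂ R = 0 :=
    hv (by
      have : v (eval₂ ((aeval x₁ : K[X] →ₐ[K] S) : K[X] →+* S) x₂ R) = 0 := by
        rw [← hR, ← h1]; rfl
      rw [this, map_zero])
  have h3 : φ (eval₂ ((aeval x₁ : K[X] →ₐ[K] S) : K[X] →+* S) x₂ R) = ι (evK a m R) := by
    rw [evK, coe_eval₂RingHom, Polynomial.hom_eval₂, Polynomial.hom_eval₂, hm]
    congr 1
    apply Polynomial.ringHom_ext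
    · intro c
      simp [hφ]
    · simp [ha]
  apply hι
  rw [← h3, h2, map_zero, map_zero]

/-- values: the two ring homs `Kbar[X][X] → ℂ`, `G ↦ iota (evK a m G)` and `G ↦ PsiK ⟨evF s₁ s₂ G, _⟩ τ`, agree.
(Cleanest: `e : Kbar[X][X] →+* convK := eval₂RingHom (aeval ⟨s₁,h₁⟩ : Kbar[X] →ₐ[Kbar] convK) ⟨s₂,h₂⟩`,
`(e G : LaurentSeries Kbar) = evF s₁ s₂ G` and `PsiK (e G) τ = iota (evK a m G)` both by `Polynomial.induction_on` twice or
`ringHom_ext`; `PsiK_algebraMap`; then `e R = 0`, `iota` injective.) -/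
theorem evK_of_series {R : Kbar[X][X]} {s₁ s₂ : LaurentSeries Kbar} (h₁ : s₁ ∈ convK)
    (h₂ : s₂ ∈ convK) (hR : evF s₁ s₂ R = 0) (τ : ℍ) {a m : Kbar}
    (ha : PsiK ⟨s₁, h₁⟩ τ = iota a) (hm : PsiK ⟨s₂, h₂⟩ τ = iota m) : evK a m R = 0 :=
  An_evK_abs convK.val Subtype.val_injective ((Pi.evalRingHom (fun _ : ℍ => ℂ) τ).comp PsiK) iota
    iota.injective (fun c => PsiK_algebraMap c τ) (x₁ := ⟨s₁, h₁⟩) (x₂ := ⟨s₂, h₂⟩) hR ha hm

/-- the subfield `FN p ⊆ Kbar((q))`: `((evF j y R : FN p) : LaurentSeries Kbar) = evF ↑j ↑y R`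
(`Polynomial.induction_on` / `ringHom_ext` with `(modularFunctionFieldBar p).val`). -/
theorem coe_evF (j y : FN p) (R : Kbar[X][X]) :
    ((evF j y R : FN p) : LaurentSeries Kbar) =
      evF (j : LaurentSeries Kbar) (y : LaurentSeries Kbar) R := by
  exact An_map_evF (modularFunctionFieldBar p).val j y R

variable {p}

theorem Phi_series {R : Kbar[X][X]} {ζ : Kbarˣ}
    (hR : R.map (aJ p) = ∏ s, (X - C (rootFam p ζ s))) :
    evF (jqModC Kbar) (jBase p Kbar) R = 0 := by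
  have h := evF_of_fac (rootFam p ζ) hR none
  rw [rootFam_none, jBase, evF_qExpand] at h
  exact qExpand_injective (R := Kbar) p (by rw [map_zero]; exact h)

theorem V_series {R : Kbar[X][X]} {ζ : Kbarˣ}
    (hR : R.map (aJ p) = ∏ s, (X - C (numFam p ζ s))) :
    evF (jqModC Kbar) (muSer p) R = 0 := by
  have h := evF_of_fac (numFam p ζ) hR none
  rw [numFam_none, jBase, evF_qExpand] at h
  exact qExpand_injective (R := Kbar) p (by rw [h, map_zero])

/-- `Φ_p(j, j_p) = 0` in `FN p`. -/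
theorem Phi_FN {R : Kbar[X][X]} {ζ : Kbarˣ}
    (hR : R.map (aJ p) = ∏ s, (X - C (rootFam p ζ s))) :
    evF (jF p) (FNAdjoin.jd p p dvd_rfl) R = 0 := by
  apply Subtype.ext
  rw [coe_evF, FNAdjoin.coe_jd',
    show ((jF p : FN p) : LaurentSeries Kbar) = coeffEmb Kbar jq from rfl,
    GAL.Igusa.LevelDeg_coeffEmb_jq]
  exact Phi_series hR

/-- `Φ_p(j(τ), j(pτ)) = 0`. -/
theorem Phi_zero {R : Kbar[X][X]} {ζ : Kbarˣ}
    (hR : R.map (aJ p) = ∏ s, (X - C (rootFam p ζ s))) (τ : ℍ) {a b : Kbar}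
    (ha : kleinJ τ = iota a) (hb : iota b = kleinJ (mulH p τ)) : evK a b R = 0 :=
  evK_of_series jqModC_mem_convK (jBase_mem_convK p) (Phi_series hR) τ
    (by rw [PsiK_jqModC, ha]) (by rw [PsiK_jBase, hb])

/-- `V_p(j(τ), j(pτ) c) = 0` if `c Δ(τ) = p¹² Δ(pτ)`. -/
theorem V_zero {R : Kbar[X][X]} {ζ : Kbarˣ}
    (hR : R.map (aJ p) = ∏ s, (X - C (numFam p ζ s))) (τ : ℍ) {a b c : Kbar}
    (ha : kleinJ τ = iota a) (hb : iota b = kleinJ (mulH p τ))
    (hc : iota c * Δ τ = (p : ℂ) ^ 12 * Δ (mulH p τ)) : evK a (b * c) R = 0 := by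
  refine evK_of_series jqModC_mem_convK (muSer_mem_convK p) (V_series hR) τ
    (by rw [PsiK_jqModC, ha]) ?_
  have hΔ : Δ τ ≠ 0 := ModularForm.discriminant_ne_zero τ
  rw [PsiK_muSer, map_mul, hb, eq_div_of_mul_eq hΔ hc]
  field_simp

end Ident

end Fermat.Agent.S15.M1.Num
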