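import Fermat.Agent.S15.M1.Num.Val

/-!
# S15 / M1 / NUM : the roots of `Φ(a, X)` for `|a| > 1`.  PURE MATHLIB (on top of `Val.lean`).

`R ∈ K[Y][X]` monic in `X` with `R(J, X) = (X - r_∞) ∏_{i < p} (X - r_i)`, `J = t^{-p}(1+..)`, `r_∞ = t^{-p²}(1 + ..)`,
`r_i = u_i t^{-1}(1 + ..)`.  For `a = t₀^{-p}`, `v t₀ < 1`, every root `b` of `R(a, X)` has `v b = v a ^ p` or
`v b ^ p = v a`, and exactly one root (with multiplicity) is of the first kind.
-/

set_option autoImplicit false

noncomputable section

namespace Fermat.Agent.S15.M1.Num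

open Polynomial

variable {K : Type*} [Field K] {Γ₀ : Type*} [LinearOrderedCommGroupWithZero Γ₀]
  {v : Valuation K Γ₀} {t₀ a : K} {J : LaurentSeries K} {p : ℕ}

/-- the hypotheses on `R` (`= Φ_p`). -/
structure PhiLike (v : Valuation K Γ₀) (J : LaurentSeries K) (p : ℕ) (R : K[X][X])
    (r : Option (Fin p) → LaurentSeries K) : Prop where
  monic : R.Monic
  r0 : Lead v (r none) (-((p : ℤ) ^ 2))
  r1 : ∀ i, Lead v (r (some i)) (-1)
  fac : R.map ((aeval J : K[X] →ₐ[K] LaurentSeries K) : K[X] →+* LaurentSeries K) =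
    ∏ i, (X - C (r i))

theorem Setup.one_lt_val_a (S : Setup v t₀ a J p) : 1 < v a := by
  have h0 : v t₀ ≠ 0 := (Valuation.ne_zero_iff v).mpr S.ht
  have h1 : v t₀ ^ p < 1 := pow_lt_one₀ zero_le S.ht1 S.hn.ne'
  rw [S.val_a, zpow_neg, zpow_natCast]
  exact (one_lt_inv₀ (pow_pos (zero_lt_iff.2 h0) p)).2 h1

/-- **dichotomy**: `exists_of_ev2_eq_zero` with `k none = -p²`, `k (some i) = -1`, and `Setup.val_a`. -/
theorem PhiLike.dich (S : Setup v t₀ a J p) {R : K[X][X]} {r : Option (Fin p) → LaurentSeries K}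
    (h : PhiLike v J p R r) {b : K} (hb : ev2 R a b = 0) : v b = v a ^ p ∨ v b ^ p = v a := by
  obtain ⟨i, hi⟩ := exists_of_ev2_eq_zero S R r
    (fun o => Option.elim o (-((p : ℤ) ^ 2)) (fun _ => -1))
    (fun o => by
      cases o with
      | none => exact h.r0
      | some i => exact h.r1 i)
    (fun o => by
      cases o with
      | none =>
        have hp : (0 : ℤ) < (p : ℤ) := by exact_mod_cast S.hn
        simp only [Option.elim_none]
        have : (0 : ℤ) < (p : ℤ) ^ 2 := by positivity
        omega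
      | some i => simp) h.fac b hb
  cases i with
  | none =>
    left
    simp only [Option.elim_none] at hi
    rw [hi, S.val_a, ← zpow_natCast, ← zpow_mul]
    congr 1
    ring
  | some i =>
    right
    simp only [Option.elim_some] at hi
    rw [hi, S.val_a, ← zpow_natCast, ← zpow_mul]
    congr 1
    ring

/-- `v (R(a, a)) = v a ^ (2 p)` (`val_ev2` with `c = a`; `2 ≤ p`). -/
theorem PhiLike.val_diag (hp : 2 ≤ p) (S : Setup v t₀ a J p) {R : K[X][X]}
    {r : Option (Fin p) → LaurentSeries K} (h : PhiLike v J p R r) :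
    v (ev2 R a a) = v a ^ (2 * p) := by
  have hA : 1 < v a := S.one_lt_val_a
  have h0 : v t₀ ≠ 0 := (Valuation.ne_zero_iff v).mpr S.ht
  have e1 : v t₀ ^ (-((p : ℤ) ^ 2)) = v a ^ p := by
    rw [S.val_a, ← zpow_natCast, ← zpow_mul]
    congr 1
    ring
  have e2 : (v t₀ ^ (-1 : ℤ)) ^ p = v a := by
    rw [S.val_a, ← zpow_natCast, ← zpow_mul]
    congr 1
    ring
  have hB : 1 < v t₀ ^ (-1 : ℤ) := by
    rw [zpow_neg, zpow_one]
    exact (one_lt_inv₀ (zero_lt_iff.2 h0)).2 S.ht1
  have l1 : v a < v a ^ p := lt_self_pow₀ hA (by omega)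
  have l2 : v t₀ ^ (-1 : ℤ) < v a := by
    have := lt_self_pow₀ hB (show 1 < p by omega)
    rwa [e2] at this
  have hv := val_ev2 S R r
    (fun o => Option.elim o (-((p : ℤ) ^ 2)) (fun _ => -1))
    (fun o => by
      cases o with
      | none => exact h.r0
      | some i => exact h.r1 i)
    (fun o => by
      cases o with
      | none =>
        have hp' : (0 : ℤ) < (p : ℤ) := by exact_mod_cast S.hn
        simp only [Option.elim_none]
        have : (0 : ℤ) < (p : ℤ) ^ 2 := by positivity
        omega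
      | some i => simp) h.fac a
    (fun o => by
      cases o with
      | none =>
        simp only [Option.elim_none]
        rw [e1]
        exact l1.ne
      | some i =>
        simp only [Option.elim_some]
        exact l2.ne')
  rw [hv, Fintype.prod_option]
  simp only [Option.elim_none, Option.elim_some]
  rw [e1, max_eq_right l1.le, max_eq_left l2.le, Finset.prod_const, Finset.card_univ,
    Fintype.card_fin, ← pow_add, two_mul]

open Classical in
theorem Count_countP_big_prod (v : Valuation K Γ₀) (a : K) (p : ℕ) (hp : 2 ≤ p) (ha : 1 < v a)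
    (s : Multiset K) (hs : ∀ b ∈ s, v b = v a ^ p ∨ v b ^ p = v a) :
    (s.map (fun b => v (a - b))).prod =
      (v a ^ p) ^ s.countP (fun b => v b = v a ^ p) *
        v a ^ s.countP (fun b => ¬ v b = v a ^ p) := by
  induction s using Multiset.induction_on with
  | empty => simp
  | cons b s ih =>
    have ih' := ih (fun c hc => hs c (Multiset.mem_cons_of_mem hc))
    rw [Multiset.map_cons, Multiset.prod_cons, ih']
    by_cases hb : v b = v a ^ p
    · have h1 : v a < v b := by
        rw [hb]
        calc v a = v a ^ 1 := (pow_one _).symm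
          _ < v a ^ p := pow_lt_pow_right₀ ha (by omega)
      rw [Valuation.map_sub_eq_of_lt_right v h1,
        Multiset.countP_cons_of_pos (p := fun b => v b = v a ^ p) s hb,
        Multiset.countP_cons_of_neg (p := fun b => ¬ v b = v a ^ p) s (not_not.mpr hb), hb, pow_succ,
        mul_comm ((v a ^ p) ^ _) (v a ^ p), mul_assoc]
    · have hb' : v b ^ p = v a := (hs b (Multiset.mem_cons_self b s)).resolve_left hb
      have h1 : v b < v a := by
        by_contra hcon
        have h2 : v a ≤ v b := not_lt.mp hcon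
        have h3 : 1 < v b := lt_of_lt_of_le ha h2
        have h4 : v b < v b ^ p := by
          calc v b = v b ^ 1 := (pow_one _).symm
            _ < v b ^ p := pow_lt_pow_right₀ h3 (by omega)
        rw [hb'] at h4
        exact absurd h4 (not_lt.mpr h2)
      rw [Valuation.map_sub_eq_of_lt_left v h1,
        Multiset.countP_cons_of_neg (p := fun b => v b = v a ^ p) s hb,
        Multiset.countP_cons_of_pos (p := fun b => ¬ v b = v a ^ p) s hb, pow_succ,
        mul_left_comm, mul_comm (v a)]

theorem Count_countP_big_arith {p n₁ n₂ : ℕ} (hp : 2 ≤ p) (h1 : p * n₁ + n₂ = 2 * p)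
    (h2 : n₁ + n₂ = p + 1) : n₁ = 1 := by
  have h3 : ((p : ℤ) - 1) * ((n₁ : ℤ) - 1) = 0 := by
    have h1' : (p : ℤ) * n₁ + n₂ = 2 * p := by exact_mod_cast h1
    have h2' : (n₁ : ℤ) + n₂ = p + 1 := by exact_mod_cast h2
    linear_combination h1' - h2'
  rcases mul_eq_zero.mp h3 with h | h <;> omega

open Classical in
theorem Count_countP_big_poly [IsAlgClosed K] (v : Valuation K Γ₀) (a : K) (p : ℕ) (hp : 2 ≤ p)
    (ha : 1 < v a) (f : K[X]) (hf : f.Monic) (hdeg : f.natDegree = p + 1)
    (hs : ∀ b, f.eval b = 0 → v b = v a ^ p ∨ v b ^ p = v a)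
    (hval : v (f.eval a) = v a ^ (2 * p)) :
    Multiset.countP (fun b => v b = v a ^ p) f.roots = 1 := by
  have hsp : f.Splits := IsAlgClosed.splits f
  have h1 : f = (f.roots.map (fun b => X - C b)).prod := hsp.eq_prod_roots_of_monic hf
  have h2 : f.eval a = (f.roots.map (fun b => a - b)).prod := by
    conv_lhs => rw [h1]
    rw [eval_multiset_prod, Multiset.map_map]
    congr 1
    apply Multiset.map_congr rfl
    intro b _
    simp
  have h3 : v (f.eval a) = (f.roots.map (fun b => v (a - b))).prod := by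
    rw [h2, map_multiset_prod, Multiset.map_map]
    rfl
  have h4 := Count_countP_big_prod v a p hp ha f.roots (fun b hb => hs b (by
    exact (mem_roots hf.ne_zero).mp hb))
  rw [← h3, hval, ← pow_mul, ← pow_add] at h4
  have h5 := pow_right_injective₀ (lt_trans zero_lt_one ha) ha.ne' h4
  have h6 := Multiset.card_eq_countP_add_countP (fun b => v b = v a ^ p) f.roots
  rw [← hsp.natDegree_eq_card_roots, hdeg] at h6
  exact Count_countP_big_arith hp h5.symm h6.symm

open Classical in
/-- **exactly one big root**.  `f := R.map (evalRingHom a)` is monic of degree `p + 1` (degree from `h.fac`: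
`natDegree_map_eq_of_injective`/`Monic.natDegree_map`, `natDegree_prod_of_monic`), splits (`IsAlgClosed.splits`):
`f = ∏_{b ∈ f.roots} (X - C b)`, `card f.roots = p + 1`.  `v (f.eval a) = ∏_{b} v (a - b)`, and `v (a - b) = v a ^ p` if
`v b = v a ^ p`, `= v a` if `v b ^ p = v a` (then `v b < v a`).  With `n₁` the number of big roots:
`v a ^ (p n₁ + (p + 1 - n₁)) = v a ^ (2 p)`, `1 < v a` so the exponents agree (`pow_right_injective₀`), `n₁ = 1`. -/
theorem PhiLike.countP_big [IsAlgClosed K] (hp : 2 ≤ p) (S : Setup v t₀ a J p) {R : K[X][X]}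
    {r : Option (Fin p) → LaurentSeries K} (h : PhiLike v J p R r) :
    Multiset.countP (fun b => v b = v a ^ p) (R.map (evalRingHom a)).roots = 1 := by
  have hdeg : (R.map (evalRingHom a)).natDegree = p + 1 := by
    have h1 := congrArg natDegree h.fac
    rw [h.monic.natDegree_map, natDegree_finsetProd_X_sub_C_eq_card, Finset.card_univ,
      Fintype.card_option, Fintype.card_fin] at h1
    rw [h.monic.natDegree_map, h1]
  exact Count_countP_big_poly v a p hp S.one_lt_val_a _ (h.monic.map _) hdeg
    (fun b hb => h.dich S hb) (h.val_diag hp S)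

/-- two big roots are equal. -/
theorem PhiLike.big_unique [IsAlgClosed K] (hp : 2 ≤ p) (S : Setup v t₀ a J p) {R : K[X][X]}
    {r : Option (Fin p) → LaurentSeries K} (h : PhiLike v J p R r) {b b' : K}
    (hb : ev2 R a b = 0) (hb' : ev2 R a b' = 0) (hv : v b = v a ^ p) (hv' : v b' = v a ^ p) :
    b = b' := by
  classical
  have hf0 : R.map (evalRingHom a) ≠ 0 := (h.monic.map _).ne_zero
  have h1 := h.countP_big hp S
  rw [Multiset.countP_eq_card_filter, Multiset.card_eq_one] at h1
  obtain ⟨c, hc⟩ := h1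
  have hbm : b ∈ Multiset.filter (fun b => v b = v a ^ p) (R.map (evalRingHom a)).roots :=
    Multiset.mem_filter.2 ⟨(mem_roots hf0).2 hb, hv⟩
  have hbm' : b' ∈ Multiset.filter (fun b => v b = v a ^ p) (R.map (evalRingHom a)).roots :=
    Multiset.mem_filter.2 ⟨(mem_roots hf0).2 hb', hv'⟩
  rw [hc, Multiset.mem_singleton] at hbm hbm'
  rw [hbm, hbm']

/-- a big root is simple (`countP_big`: `count b roots ≤ countP = 1`, `Polynomial.count_roots`,
`one_lt_rootMultiplicity_iff_isRoot` / `Polynomial.derivative_rootMultiplicity_of_root`). -/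
theorem PhiLike.big_simple [IsAlgClosed K] (hp : 2 ≤ p) (S : Setup v t₀ a J p) {R : K[X][X]}
    {r : Option (Fin p) → LaurentSeries K} (h : PhiLike v J p R r) {b : K}
    (hb : ev2 R a b = 0) (hv : v b = v a ^ p) :
    (derivative (R.map (evalRingHom a))).eval b ≠ 0 := by
  classical
  have hf0 : R.map (evalRingHom a) ≠ 0 := (h.monic.map _).ne_zero
  have h1 := h.countP_big hp S
  rw [Multiset.countP_eq_card_filter, Multiset.card_eq_one] at h1
  obtain ⟨c, hc⟩ := h1
  have hbm : b ∈ Multiset.filter (fun b => v b = v a ^ p) (R.map (evalRingHom a)).roots :=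
    Multiset.mem_filter.2 ⟨(mem_roots hf0).2 hb, hv⟩
  have hbc : b = c := by
    rw [hc, Multiset.mem_singleton] at hbm
    exact hbm
  have h2 : Multiset.count b (R.map (evalRingHom a)).roots = 1 := by
    rw [← Multiset.count_filter_of_pos (p := fun b => v b = v a ^ p) hv, hc, hbc,
      Multiset.count_singleton_self]
  rw [count_roots] at h2
  intro hd
  have h3 := (one_lt_rootMultiplicity_iff_isRoot hf0).2 ⟨hb, hd⟩
  omega

/-- the hypotheses on `R` (`= V_p`): all the roots have leading term `unit * t^{-p}`. -/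
structure VLike (v : Valuation K Γ₀) (J : LaurentSeries K) (p : ℕ) (R : K[X][X])
    (r : Option (Fin p) → LaurentSeries K) : Prop where
  r0 : ∀ i, Lead v (r i) (-(p : ℤ))
  fac : R.map ((aeval J : K[X] →ₐ[K] LaurentSeries K) : K[X] →+* LaurentSeries K) =
    ∏ i, (X - C (r i))

theorem VLike.val_eq (S : Setup v t₀ a J p) {R : K[X][X]} {r : Option (Fin p) → LaurentSeries K}
    (h : VLike v J p R r) {c : K} (hc : ev2 R a c = 0) : v c = v a := by
  obtain ⟨i, hi⟩ := exists_of_ev2_eq_zero S R r (fun _ => -(p : ℤ)) h.r0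
    (fun _ => by have := S.hn; omega) h.fac c hc
  rw [hi, S.val_a]

end Fermat.Agent.S15.M1.Num
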