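import Mathlib

/-!
# S15 / M1 / NUM : dominant terms ("Newton polygons without polygons").  PURE MATHLIB.

`K` a field with a valuation `v`, `t₀ ∈ K`.  The *weight* of the `n`-th term of a Laurent series `s ∈ K((t))` is
`v (s_n) * v t₀ ^ n` (the absolute value of the term `s_n t₀ⁿ`; the series need not converge anywhere).
`Dom v t₀ s n D` : the `n`-th term has weight `D ≠ 0` and strictly beats all the other terms.

* `Dom.mul`, `Dom.prod`, `Dom.pow` : products of dominant series are dominant;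
* `dom_sub_of_lt`, `dom_sub_of_gt` : `c - s` is dominant for `s = u t^k (1 + ...)`, `k < 0`, integral coefficients,
  `v u = 1`, unless `v c = v t₀ ^ k`;
* `Dom.eval` : if `P(J)` is dominant of weight `D` (`P` a polynomial, `J = t^{-n}(1 + ...)` integral,
  `a = t₀^{-n}`) then `v (P(a)) = D`.
-/

set_option autoImplicit false

noncomputable section

namespace Fermat.Agent.S15.M1.Num

open Polynomial

variable {K : Type*} [Field K] {Γ₀ : Type*} [LinearOrderedCommGroupWithZero Γ₀]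
  (v : Valuation K Γ₀) (t₀ : K)

/-- the weight of the `n`-th term. -/
def wt (s : LaurentSeries K) (n : ℤ) : Γ₀ := v (s.coeff n) * v t₀ ^ n

/-- the `n`-th term (of weight `D`) is strictly dominant. -/
structure Dom (s : LaurentSeries K) (n : ℤ) (D : Γ₀) : Prop where
  eq : wt v t₀ s n = D
  ne : D ≠ 0
  lt : ∀ m, m ≠ n → wt v t₀ s m < D

/-- `s = u t^k (1 + ...)` with integral coefficients and `u` a unit. -/
structure Lead (s : LaurentSeries K) (k : ℤ) : Prop where
  unit : v (s.coeff k) = 1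
  zero : ∀ m, m < k → s.coeff m = 0
  le : ∀ m, v (s.coeff m) ≤ 1

variable {v t₀}

theorem wt_le_of_dom {s : LaurentSeries K} {n : ℤ} {D : Γ₀} (h : Dom v t₀ s n D) (m : ℤ) :
    wt v t₀ s m ≤ D := by
  by_cases hm : m = n
  · rw [hm, h.eq]
  · exact (h.lt m hm).le

theorem Dom_wt_mul (ht : t₀ ≠ 0) (s s' : LaurentSeries K) (i j : ℤ) :
    v (s.coeff i * s'.coeff j) * v t₀ ^ (i + j) = wt v t₀ s i * wt v t₀ s' j := by
  have hv : v t₀ ≠ 0 := (Valuation.ne_zero_iff v).2 ht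
  rw [wt, wt, map_mul, zpow_add₀ hv, mul_mul_mul_comm]

theorem Dom_wt_mul_lt {s s' : LaurentSeries K} {n n' : ℤ} {D D' : Γ₀} (h : Dom v t₀ s n D)
    (h' : Dom v t₀ s' n' D') {i j : ℤ} (hij : ¬ (i = n ∧ j = n')) :
    wt v t₀ s i * wt v t₀ s' j < D * D' := by
  by_cases hi : i = n
  · have hj : j ≠ n' := fun hj => hij ⟨hi, hj⟩
    exact mul_lt_mul_of_le_of_lt_of_nonneg_of_pos (wt_le_of_dom h i) (h'.lt j hj) zero_le
      (zero_lt_iff.2 h.ne)
  · exact mul_lt_mul_of_lt_of_le_of_nonneg_of_pos (h.lt i hi) (wt_le_of_dom h' j) zero_le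
      (zero_lt_iff.2 h'.ne)

theorem Dom_sum_lt (ht : t₀ ≠ 0) {s s' : LaurentSeries K} {n n' : ℤ} {D D' : Γ₀}
    (h : Dom v t₀ s n D) (h' : Dom v t₀ s' n' D') (m : ℤ) (T : Finset (ℤ × ℤ))
    (hT : ∀ ij ∈ T, ij.1 + ij.2 = m ∧ ¬ (ij.1 = n ∧ ij.2 = n')) :
    v (∑ ij ∈ T, s.coeff ij.1 * s'.coeff ij.2) * v t₀ ^ m < D * D' := by
  have hv : v t₀ ≠ 0 := (Valuation.ne_zero_iff v).2 ht
  have hvm : 0 < v t₀ ^ m := zero_lt_iff.2 (zpow_ne_zero _ hv)
  rw [← lt_mul_inv_iff₀ hvm]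
  refine Valuation.map_sum_lt v (mul_ne_zero (mul_ne_zero h.ne h'.ne) (inv_ne_zero hvm.ne'))
    fun ij hij => ?_
  rw [lt_mul_inv_iff₀ hvm]
  obtain ⟨h1, h2⟩ := hT ij hij
  rw [← h1, Dom_wt_mul ht]
  exact Dom_wt_mul_lt h h' h2

/-- **(i)** products.  `HahnSeries.coeff_mul` (finite sum over the antidiagonal of the supports), every term
`(i, j) ≠ (n, n')` has weight `< D * D'` (`mul_lt_mul''`-style lemmas in `Γ₀`, use `wt_le_of_dom`, `h.ne`),
`Valuation.map_sum_lt`, `Valuation.map_add_eq_of_lt_left`. -/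
theorem Dom.mul (ht : t₀ ≠ 0) {s s' : LaurentSeries K} {n n' : ℤ} {D D' : Γ₀} (h : Dom v t₀ s n D)
    (h' : Dom v t₀ s' n' D') : Dom v t₀ (s * s') (n + n') (D * D') := by
  classical
  have hv : v t₀ ≠ 0 := (Valuation.ne_zero_iff v).2 ht
  refine ⟨?_, mul_ne_zero h.ne h'.ne, ?_⟩
  · have hn : s.coeff n ≠ 0 := by
      intro h0
      have := h.eq
      rw [wt, h0, map_zero, zero_mul] at this
      exact h.ne this.symm
    have hn' : s'.coeff n' ≠ 0 := by
      intro h0
      have := h'.eq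
      rw [wt, h0, map_zero, zero_mul] at this
      exact h'.ne this.symm
    have hmem : (n, n') ∈ Finset.antidiagonal s.isPWO_support s'.isPWO_support (n + n') := by
      rw [Finset.mem_antidiagonal]
      exact ⟨hn, hn', rfl⟩
    have hvm : 0 < v t₀ ^ (n + n') := zero_lt_iff.2 (zpow_ne_zero _ hv)
    have h1 := Dom_sum_lt ht h h' (n + n')
      ((Finset.antidiagonal s.isPWO_support s'.isPWO_support (n + n')).erase (n, n')) (by
        intro ij hij
        rw [Finset.mem_erase, Finset.mem_antidiagonal] at hij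
        exact ⟨hij.2.2.2, fun hh => hij.1 (Prod.ext hh.1 hh.2)⟩)
    have h2 : v (s.coeff n * s'.coeff n') * v t₀ ^ (n + n') = D * D' := by
      rw [Dom_wt_mul ht, h.eq, h'.eq]
    rw [← h2] at h1
    have h3 := lt_of_mul_lt_mul_right h1 hvm.le
    rw [wt, HahnSeries.coeff_mul, ← Finset.add_sum_erase _ _ hmem,
      Valuation.map_add_eq_of_lt_left v h3, h2]
  · intro m hm
    rw [wt, HahnSeries.coeff_mul]
    refine Dom_sum_lt ht h h' m _ fun ij hij => ?_
    rw [Finset.mem_antidiagonal] at hij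
    refine ⟨hij.2.2, fun hh => hm ?_⟩
    rw [← hij.2.2, hh.1, hh.2]

theorem dom_one (ht : t₀ ≠ 0) : Dom v t₀ (1 : LaurentSeries K) 0 1 := by
  refine ⟨?_, one_ne_zero, ?_⟩
  · rw [wt, HahnSeries.coeff_one, if_pos rfl, map_one, zpow_zero, one_mul]
  · intro m hm
    rw [wt, HahnSeries.coeff_one, if_neg hm, map_zero, zero_mul]
    exact zero_lt_one

theorem Dom.prod {ι : Type*} (ht : t₀ ≠ 0) (S : Finset ι) (s : ι → LaurentSeries K) (n : ι → ℤ)
    (D : ι → Γ₀) (h : ∀ i ∈ S, Dom v t₀ (s i) (n i) (D i)) :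
    Dom v t₀ (∏ i ∈ S, s i) (∑ i ∈ S, n i) (∏ i ∈ S, D i) := by
  classical
  induction S using Finset.induction_on with
  | empty => simpa using dom_one ht
  | insert i S hi ih =>
    rw [Finset.prod_insert hi, Finset.sum_insert hi, Finset.prod_insert hi]
    exact Dom.mul ht (h i (Finset.mem_insert_self i S))
      (ih fun k hk => h k (Finset.mem_insert_of_mem hk))

theorem Dom.pow (ht : t₀ ≠ 0) {s : LaurentSeries K} {n : ℤ} {D : Γ₀} (h : Dom v t₀ s n D) (k : ℕ) :
    Dom v t₀ (s ^ k) (k * n) (D ^ k) := by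
  have := Dom.prod ht (Finset.range k) (fun _ => s) (fun _ => n) (fun _ => D) (fun _ _ => h)
  simpa using this

end Fermat.Agent.S15.M1.Num
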