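import Fermat.Agent.S15.M1.Num.Dom

/-! # S15 / M1 / NUM : sums of dominant series with distinct positions.  PURE MATHLIB (on top of `Dom.lean`). -/

set_option autoImplicit false

noncomputable section

namespace Fermat.Agent.S15.M1.Num

open Polynomial

variable {K : Type*} [Field K] {Γ₀ : Type*} [LinearOrderedCommGroupWithZero Γ₀]
  {v : Valuation K Γ₀} {t₀ : K}

theorem domSum_wt_zero (m : ℤ) : wt v t₀ (0 : LaurentSeries K) m = 0 := by
  unfold wt
  rw [HahnSeries.coeff_zero, map_zero, zero_mul]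

theorem domSum_wt_add_le {a b : LaurentSeries K} {m : ℤ} {M : Γ₀} (ha : wt v t₀ a m ≤ M)
    (hb : wt v t₀ b m ≤ M) : wt v t₀ (a + b) m ≤ M := by
  unfold wt at *
  rw [HahnSeries.coeff_add]
  rcases le_total (v (a.coeff m)) (v (b.coeff m)) with h | h
  · exact le_trans (mul_le_mul_left (v.map_add_le h le_rfl) _) hb
  · exact le_trans (mul_le_mul_left (v.map_add_le le_rfl h) _) ha

theorem domSum_wt_add_lt {a b : LaurentSeries K} {m : ℤ} {M : Γ₀} (ha : wt v t₀ a m < M)
    (hb : wt v t₀ b m < M) : wt v t₀ (a + b) m < M := by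
  unfold wt at *
  rw [HahnSeries.coeff_add]
  rcases le_total (v (a.coeff m)) (v (b.coeff m)) with h | h
  · exact lt_of_le_of_lt (mul_le_mul_left (v.map_add_le h le_rfl) _) hb
  · exact lt_of_le_of_lt (mul_le_mul_left (v.map_add_le le_rfl h) _) ha

theorem domSum_wt_add_eq_of_lt {a b : LaurentSeries K} {m : ℤ} (h : wt v t₀ b m < wt v t₀ a m) :
    wt v t₀ (a + b) m = wt v t₀ a m := by
  unfold wt at *
  rw [HahnSeries.coeff_add, v.map_add_eq_of_lt_left (lt_of_mul_lt_mul_right' h)]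

theorem domSum_wt_finsum_le {ι : Type*} (S : Finset ι) (s : ι → LaurentSeries K) {m : ℤ} {M : Γ₀}
    (h : ∀ i ∈ S, wt v t₀ (s i) m ≤ M) : wt v t₀ (∑ i ∈ S, s i) m ≤ M := by
  classical
  induction S using Finset.induction_on with
  | empty => rw [Finset.sum_empty, domSum_wt_zero]; exact zero_le
  | insert i S hi ih =>
    rw [Finset.sum_insert hi]
    exact domSum_wt_add_le (h i (Finset.mem_insert_self i S))
      (ih fun k hk => h k (Finset.mem_insert_of_mem hk))

theorem domSum_wt_finsum_lt {ι : Type*} (S : Finset ι) (s : ι → LaurentSeries K) {m : ℤ} {M : Γ₀}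
    (hM : M ≠ 0) (h : ∀ i ∈ S, wt v t₀ (s i) m < M) : wt v t₀ (∑ i ∈ S, s i) m < M := by
  classical
  induction S using Finset.induction_on with
  | empty => rw [Finset.sum_empty, domSum_wt_zero]; exact zero_lt_iff.2 hM
  | insert i S hi ih =>
    rw [Finset.sum_insert hi]
    exact domSum_wt_add_lt (h i (Finset.mem_insert_self i S))
      (ih fun k hk => h k (Finset.mem_insert_of_mem hk))

/-- A finite sum of dominant series with pairwise distinct positions: all the weights are `≤ M` if all the `D i` are,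
and the weight at the position `n i` is `M` if `D i = M`. -/
theorem wt_sum_le {ι : Type*} (S : Finset ι) (s : ι → LaurentSeries K) (n : ι → ℤ) (D : ι → Γ₀)
    (h : ∀ i ∈ S, Dom v t₀ (s i) (n i) (D i)) {M : Γ₀} (hM : ∀ i ∈ S, D i ≤ M) (m : ℤ) :
    wt v t₀ (∑ i ∈ S, s i) m ≤ M :=
  domSum_wt_finsum_le S s fun i hi => (wt_le_of_dom (h i hi) m).trans (hM i hi)

theorem wt_sum_eq {ι : Type*} (S : Finset ι) (s : ι → LaurentSeries K) (n : ι → ℤ) (D : ι → Γ₀)
    (h : ∀ i ∈ S, Dom v t₀ (s i) (n i) (D i)) (hinj : Set.InjOn n S) {M : Γ₀}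
    (hM : ∀ i ∈ S, D i ≤ M) {i : ι} (hi : i ∈ S) (hiM : D i = M) :
    wt v t₀ (∑ i ∈ S, s i) (n i) = M := by
  classical
  have hM0 : M ≠ 0 := hiM ▸ (h i hi).ne
  have h1 : wt v t₀ (s i) (n i) = M := (h i hi).eq.trans hiM
  have h2 : wt v t₀ (∑ k ∈ S.erase i, s k) (n i) < M := by
    refine domSum_wt_finsum_lt _ s hM0 fun k hk => ?_
    have hkS : k ∈ S := Finset.mem_of_mem_erase hk
    have hne : n i ≠ n k := fun e => (Finset.ne_of_mem_erase hk) (hinj hkS hi e.symm)
    exact lt_of_lt_of_le ((h k hkS).lt (n i) hne) (hM k hkS)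
  rw [← Finset.add_sum_erase S s hi, domSum_wt_add_eq_of_lt (by rw [h1]; exact h2), h1]

/-- If moreover the sum is dominant, then exactly one `D i` is maximal, and it is the weight of the sum. -/
theorem exists_unique_max {ι : Type*} (S : Finset ι) (s : ι → LaurentSeries K) (n : ι → ℤ)
    (D : ι → Γ₀) (h : ∀ i ∈ S, Dom v t₀ (s i) (n i) (D i)) (hinj : Set.InjOn n S) {n₀ : ℤ} {D₀ : Γ₀}
    (h₀ : Dom v t₀ (∑ i ∈ S, s i) n₀ D₀) :
    ∃ i ∈ S, D i = D₀ ∧ ∀ k ∈ S, k ≠ i → D k < D₀ := by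
  have hne : S.Nonempty := by
    rw [Finset.nonempty_iff_ne_empty]
    rintro rfl
    apply h₀.ne
    rw [← h₀.eq, Finset.sum_empty, domSum_wt_zero]
  obtain ⟨i, hi, hmax⟩ := Finset.exists_max_image S D hne
  have h1 : wt v t₀ (∑ i ∈ S, s i) (n i) = D i := wt_sum_eq S s n D h hinj hmax hi rfl
  have h2 : ∀ m, wt v t₀ (∑ i ∈ S, s i) m ≤ D i := wt_sum_le S s n D h hmax
  have hn : n i = n₀ := by
    by_contra hcon
    have h3 := h₀.lt (n i) hcon
    rw [h1, ← h₀.eq] at h3
    exact absurd (h2 n₀) (not_le.2 h3)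
  have hD : D i = D₀ := by rw [← h1, hn, h₀.eq]
  refine ⟨i, hi, hD, fun k hk hki => ?_⟩
  rw [← hD]
  refine lt_of_le_of_ne (hmax k hk) fun e => ?_
  have h4 : wt v t₀ (∑ i ∈ S, s i) (n k) = D i := wt_sum_eq S s n D h hinj hmax hk e
  have hnk : n k ≠ n₀ := fun e' => hki (hinj hk hi (e'.trans hn.symm))
  have h5 := h₀.lt (n k) hnk
  rw [h4, hD] at h5
  exact lt_irrefl _ h5

/-- ultrametric: a finite sum with a strictly largest term. -/
theorem map_sum_eq_of_unique_max {ι : Type*} (S : Finset ι) (f : ι → K) {i : ι} (hi : i ∈ S)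
    (h : ∀ k ∈ S, k ≠ i → v (f k) < v (f i)) : v (∑ k ∈ S, f k) = v (f i) := by
  classical
  rw [← Finset.add_sum_erase S f hi]
  by_cases h0 : v (f i) = 0
  · have hemp : S.erase i = ∅ := by
      rw [Finset.eq_empty_iff_forall_notMem]
      intro k hk
      have := h k (Finset.mem_of_mem_erase hk) (Finset.ne_of_mem_erase hk)
      rw [h0] at this
      exact not_lt_zero this
    rw [hemp, Finset.sum_empty, add_zero]
  · exact v.map_add_eq_of_lt_left (v.map_sum_lt h0 fun k hk =>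
      h k (Finset.mem_of_mem_erase hk) (Finset.ne_of_mem_erase hk))

end Fermat.Agent.S15.M1.Num
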