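import Fermat.Agent.S15.M1.Num.DomSub
import Fermat.Agent.S15.M1.Num.DomSum

/-! # S15 / M1 / NUM : evaluation of a polynomial in `J` with a dominant term.  PURE MATHLIB (on top of `Dom*.lean`). -/

set_option autoImplicit false

noncomputable section

namespace Fermat.Agent.S15.M1.Num

open Polynomial

variable {K : Type*} [Field K] {Γ₀ : Type*} [LinearOrderedCommGroupWithZero Γ₀]
  {v : Valuation K Γ₀} {t₀ : K}

/-- **(iii)** evaluation.  `P(J) = ∑_{k ∈ supp P} C (p_k) * J ^ k`, each term is dominant at the position `- k * n`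
with weight `v (p_k) * v a ^ k = v (p_k a^k)`; apply `exists_unique_max` and `map_sum_eq_of_unique_max`
(`Polynomial.eval_eq_sum`, `Polynomial.aeval_eq_sum_range` / `Polynomial.sum_def`). -/
theorem Dom.eval {J : LaurentSeries K} {n : ℕ} (hn : 0 < n) (hJ : Lead v J (-(n : ℤ))) (ht : t₀ ≠ 0)
    (ht1 : v t₀ < 1) {a : K} (ha : a * t₀ ^ n = 1) (P : K[X]) {n₀ : ℤ} {D₀ : Γ₀}
    (h : Dom v t₀ (aeval J P) n₀ D₀) : v (P.eval a) = D₀ := by
  classical
  have hva : v t₀ ^ (-(n : ℤ)) = v a := by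
    have h1 : v a * v t₀ ^ n = 1 := by rw [← map_pow, ← map_mul, ha, map_one]
    have h2 : v t₀ ^ n ≠ 0 := pow_ne_zero _ ((Valuation.ne_zero_iff v).2 ht)
    rw [zpow_neg, zpow_natCast]
    exact (eq_inv_of_mul_eq_one_left h1).symm
  have hJd : Dom v t₀ J (-(n : ℤ)) (v a) := hva ▸ hJ.dom ht ht1
  have hsum : aeval J P = ∑ k ∈ P.support, HahnSeries.C (P.coeff k) * J ^ k := by
    rw [Polynomial.aeval_def, Polynomial.eval₂_eq_sum, Polynomial.sum_def]
    refine Finset.sum_congr rfl fun k _ => ?_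
    rw [HahnSeries.algebraMap_apply', PowerSeries.algebraMap_apply, Algebra.algebraMap_self,
      RingHom.id_apply, HahnSeries.ofPowerSeries_C]
  have hterm : ∀ k ∈ P.support, Dom v t₀ (HahnSeries.C (P.coeff k) * J ^ k) ((k : ℤ) * (-(n : ℤ)))
      (v (P.coeff k) * v a ^ k) := fun k hk =>
    (hJd.pow ht k).C_mul (Polynomial.mem_support_iff.1 hk)
  have hinj : Set.InjOn (fun k : ℕ => (k : ℤ) * (-(n : ℤ))) P.support := by
    intro k _ k' _ hkk
    have hn' : (-(n : ℤ)) ≠ 0 := by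
      have : (0 : ℤ) < n := by exact_mod_cast hn
      omega
    exact_mod_cast mul_right_cancel₀ hn' hkk
  rw [hsum] at h
  obtain ⟨i, hi, hiD, hlt⟩ := exists_unique_max P.support
    (fun k => HahnSeries.C (P.coeff k) * J ^ k) (fun k : ℕ => (k : ℤ) * (-(n : ℤ)))
    (fun k => v (P.coeff k) * v a ^ k) hterm hinj h
  rw [Polynomial.eval_eq_sum, Polynomial.sum_def,
    map_sum_eq_of_unique_max (v := v) P.support (fun k => P.coeff k * a ^ k) hi, map_mul, map_pow,
    hiD]
  intro k hk hki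
  simp only [map_mul, map_pow]
  rw [hiD]
  exact hlt k hk hki

end Fermat.Agent.S15.M1.Num
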