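import Fermat.Agent.S15.M1.Num.Dom

/-! # S15 / M1 / NUM : dominant terms of `c - s`.  PURE MATHLIB (on top of `Dom.lean`). -/

set_option autoImplicit false

noncomputable section

namespace Fermat.Agent.S15.M1.Num

open Polynomial

variable {K : Type*} [Field K] {Γ₀ : Type*} [LinearOrderedCommGroupWithZero Γ₀]
  {v : Valuation K Γ₀} {t₀ : K}

theorem DomSub_zpow_lt (ht : t₀ ≠ 0) (ht1 : v t₀ < 1) {k m : ℤ} (h : k < m) :
    v t₀ ^ m < v t₀ ^ k :=
  zpow_lt_zpow_right_of_lt_one₀ (zero_lt_iff.2 ((Valuation.ne_zero_iff v).2 ht)) ht1 h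

theorem DomSub_zpow_pos (ht : t₀ ≠ 0) (k : ℤ) : 0 < v t₀ ^ k :=
  zero_lt_iff.2 (zpow_ne_zero _ ((Valuation.ne_zero_iff v).2 ht))

theorem DomSub_one_lt (ht : t₀ ≠ 0) (ht1 : v t₀ < 1) {k : ℤ} (h : k < 0) : 1 < v t₀ ^ k := by
  have := DomSub_zpow_lt (v := v) ht ht1 h
  rwa [zpow_zero] at this

/-- the weight of a term with integral coefficient. -/
theorem DomSub_mul_le {a : K} (ha : v a ≤ 1) (m : ℤ) : v a * v t₀ ^ m ≤ v t₀ ^ m := by
  calc v a * v t₀ ^ m ≤ 1 * v t₀ ^ m := mul_le_mul_left ha _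
    _ = v t₀ ^ m := one_mul _

theorem DomSub_coeff_C_sub (c : K) (s : LaurentSeries K) (m : ℤ) :
    (HahnSeries.C c - s).coeff m = (if m = 0 then c else 0) - s.coeff m := by
  rw [HahnSeries.coeff_sub, HahnSeries.C_apply]
  by_cases h : m = 0
  · rw [if_pos h, h, HahnSeries.coeff_single_same]
  · rw [if_neg h, HahnSeries.coeff_single_of_ne h]

/-- a series with a unit leading term and integral coefficients is dominated by its leading term. -/
theorem Lead.dom {s : LaurentSeries K} {k : ℤ} (hs : Lead v s k) (ht : t₀ ≠ 0) (ht1 : v t₀ < 1) :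
    Dom v t₀ s k (v t₀ ^ k) := by
  refine ⟨?_, (DomSub_zpow_pos ht k).ne', fun m hm => ?_⟩
  · rw [wt, hs.unit, one_mul]
  · rcases lt_or_gt_of_ne hm with h | h
    · rw [wt, hs.zero m h, map_zero, zero_mul]
      exact DomSub_zpow_pos ht k
    · exact (DomSub_mul_le (hs.le m) m).trans_lt (DomSub_zpow_lt ht ht1 h)

/-- multiplication by a nonzero constant. -/
theorem Dom.C_mul {s : LaurentSeries K} {n : ℤ} {D : Γ₀} (h : Dom v t₀ s n D) {c : K} (hc : c ≠ 0) :
    Dom v t₀ (HahnSeries.C c * s) n (v c * D) := by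
  have hc0 : v c ≠ 0 := (Valuation.ne_zero_iff v).2 hc
  have hw : ∀ m, wt v t₀ (HahnSeries.C c * s) m = v c * wt v t₀ s m := by
    intro m
    rw [wt, wt, HahnSeries.C_mul_eq_smul, HahnSeries.coeff_smul, smul_eq_mul, map_mul, mul_assoc]
  refine ⟨?_, mul_ne_zero hc0 h.ne, fun m hm => ?_⟩
  · rw [hw, h.eq]
  · rw [hw]
    exact mul_lt_mul_of_pos_left (h.lt m hm) (zero_lt_iff.2 hc0)

/-- **(ii a)** `c` small. -/
theorem dom_sub_of_lt {s : LaurentSeries K} {k : ℤ} (hs : Lead v s k) (hk : k < 0) (ht : t₀ ≠ 0)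
    (ht1 : v t₀ < 1) {c : K} (hc : v c < v t₀ ^ k) :
    Dom v t₀ (HahnSeries.C c - s) k (v t₀ ^ k) := by
  refine ⟨?_, (DomSub_zpow_pos ht k).ne', fun m hm => ?_⟩
  · rw [wt, DomSub_coeff_C_sub, if_neg hk.ne, zero_sub, Valuation.map_neg, hs.unit, one_mul]
  · rw [wt, DomSub_coeff_C_sub]
    by_cases hm0 : m = 0
    · rw [if_pos hm0, hm0, zpow_zero, mul_one]
      exact (Valuation.map_sub v _ _).trans_lt
        (max_lt hc ((hs.le 0).trans_lt (DomSub_one_lt ht ht1 hk)))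
    · rw [if_neg hm0, zero_sub, Valuation.map_neg]
      rcases lt_or_gt_of_ne hm with h | h
      · rw [hs.zero m h, map_zero, zero_mul]
        exact DomSub_zpow_pos ht k
      · exact (DomSub_mul_le (hs.le m) m).trans_lt (DomSub_zpow_lt ht ht1 h)

/-- **(ii b)** `c` large. -/
theorem dom_sub_of_gt {s : LaurentSeries K} {k : ℤ} (hs : Lead v s k) (hk : k < 0) (ht : t₀ ≠ 0)
    (ht1 : v t₀ < 1) {c : K} (hc : v t₀ ^ k < v c) :
    Dom v t₀ (HahnSeries.C c - s) 0 (v c) := by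
  have h1 : 1 < v c := (DomSub_one_lt ht ht1 hk).trans hc
  refine ⟨?_, (zero_lt_one.trans h1).ne', fun m hm => ?_⟩
  · rw [wt, DomSub_coeff_C_sub, if_pos rfl, zpow_zero, mul_one]
    exact Valuation.map_sub_eq_of_lt_left v ((hs.le 0).trans_lt h1)
  · rw [wt, DomSub_coeff_C_sub, if_neg hm, zero_sub, Valuation.map_neg]
    rcases lt_trichotomy m k with h | h | h
    · rw [hs.zero m h, map_zero, zero_mul]
      exact zero_lt_one.trans h1
    · rw [h]
      exact (DomSub_mul_le (hs.le k) k).trans_lt hc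
    · exact (DomSub_mul_le (hs.le m) m).trans_lt ((DomSub_zpow_lt ht ht1 h).trans hc)

end Fermat.Agent.S15.M1.Num
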