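import Fermat.Agent.S15.M1.Num.DomEval

/-!
# S15 / M1 / NUM : values of a two variable polynomial whose roots are known as Laurent series.
PURE MATHLIB (on top of `Dom*.lean`).

`R ∈ K[Y][X]` with `R(J, X) = ∏_i (X - r_i)` in `K((t))[X]`, `r_i = u_i t^{k_i}(1 + ...)`, `k_i < 0`.
Then for `a = t₀^{-n}`, `v t₀ < 1`: `v (R(a, c)) = ∏_i max (v c) (v t₀ ^ k_i)` unless `v c = v t₀ ^ k_i` for some `i`.
-/

set_option autoImplicit false

noncomputable section

namespace Fermat.Agent.S15.M1.Num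

open Polynomial

variable {K : Type*} [Field K] {Γ₀ : Type*} [LinearOrderedCommGroupWithZero Γ₀]

/-- `R(a, c)` (`a` = value of the inner variable `Y`, `c` = value of the outer variable `X`). -/
def ev2 (R : K[X][X]) (a c : K) : K := (R.map (evalRingHom a)).eval c

theorem eval_eval_C (R : K[X][X]) (a c : K) : (R.eval (C c)).eval a = ev2 R a c := by
  have h := Polynomial.eval_map_apply (evalRingHom a) (p := R) (C c)
  rw [coe_evalRingHom, eval_C] at h
  exact h.symm

theorem algebraMap_eq_C (c : K) : algebraMap K (LaurentSeries K) c = HahnSeries.C c := by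
  have h1 : algebraMap K (PowerSeries K) c = PowerSeries.C c := by simp
  rw [HahnSeries.algebraMap_apply', h1, HahnSeries.ofPowerSeries_C]

theorem aeval_eval_C (J : LaurentSeries K) (R : K[X][X]) (c : K) :
    aeval J (R.eval (C c)) =
      (R.map ((aeval J : K[X] →ₐ[K] LaurentSeries K) : K[X] →+* LaurentSeries K)).eval
        (HahnSeries.C c) := by
  have h := Polynomial.eval_map_apply
    ((aeval J : K[X] →ₐ[K] LaurentSeries K) : K[X] →+* LaurentSeries K) (p := R) (C c)
  rw [RingHom.coe_coe, aeval_C] at h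
  rw [algebraMap_eq_C] at h
  exact h.symm

/-- the standing hypotheses. -/
structure Setup (v : Valuation K Γ₀) (t₀ a : K) (J : LaurentSeries K) (n : ℕ) : Prop where
  hn : 0 < n
  hJ : Lead v J (-(n : ℤ))
  ht : t₀ ≠ 0
  ht1 : v t₀ < 1
  ha : a * t₀ ^ n = 1

variable {v : Valuation K Γ₀} {t₀ a : K} {J : LaurentSeries K} {n : ℕ}

theorem Setup.val_a (S : Setup v t₀ a J n) : v a = v t₀ ^ (-(n : ℤ)) := by
  have h := congrArg v S.ha
  rw [map_mul, map_pow, map_one] at h
  have h0 : v t₀ ≠ 0 := (Valuation.ne_zero_iff v).mpr S.ht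
  rw [zpow_neg, zpow_natCast]
  exact eq_inv_of_mul_eq_one_left h

theorem val_ev2 {ι : Type*} [Fintype ι] (S : Setup v t₀ a J n) (R : K[X][X])
    (r : ι → LaurentSeries K) (k : ι → ℤ) (hr : ∀ i, Lead v (r i) (k i)) (hk : ∀ i, k i < 0)
    (hR : R.map ((aeval J : K[X] →ₐ[K] LaurentSeries K) : K[X] →+* LaurentSeries K) =
      ∏ i, (X - C (r i))) (c : K) (hc : ∀ i, v c ≠ v t₀ ^ k i) :
    v (ev2 R a c) = ∏ i, max (v c) (v t₀ ^ k i) := by
  classical
  have h1 : aeval J (R.eval (C c)) = ∏ i, (HahnSeries.C c - r i) := by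
    rw [aeval_eval_C, hR, eval_prod]
    simp
  have h2 : ∀ i ∈ (Finset.univ : Finset ι), Dom v t₀ (HahnSeries.C c - r i)
      (if v c < v t₀ ^ k i then k i else 0) (max (v c) (v t₀ ^ k i)) := by
    intro i _
    rcases lt_or_gt_of_ne (hc i) with h | h
    · rw [if_pos h, max_eq_right h.le]
      exact dom_sub_of_lt (hr i) (hk i) S.ht S.ht1 h
    · rw [if_neg (not_lt.mpr h.le), max_eq_left h.le]
      exact dom_sub_of_gt (hr i) (hk i) S.ht S.ht1 h
  have h3 := Dom.prod S.ht Finset.univ _ _ _ h2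
  rw [← h1] at h3
  rw [← eval_eval_C]
  exact Dom.eval S.hn S.hJ S.ht S.ht1 S.ha _ h3

theorem exists_of_ev2_eq_zero {ι : Type*} [Fintype ι] (S : Setup v t₀ a J n) (R : K[X][X])
    (r : ι → LaurentSeries K) (k : ι → ℤ) (hr : ∀ i, Lead v (r i) (k i)) (hk : ∀ i, k i < 0)
    (hR : R.map ((aeval J : K[X] →ₐ[K] LaurentSeries K) : K[X] →+* LaurentSeries K) =
      ∏ i, (X - C (r i))) (c : K) (h0 : ev2 R a c = 0) : ∃ i, v c = v t₀ ^ k i := by
  by_contra hcon
  push Not at hcon
  have h := val_ev2 S R r k hr hk hR c hcon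
  rw [h0, map_zero] at h
  have h0' : v t₀ ≠ 0 := (Valuation.ne_zero_iff v).mpr S.ht
  obtain ⟨i, -, hi⟩ := Finset.prod_eq_zero_iff.mp h.symm
  have : v t₀ ^ k i ≤ 0 := hi ▸ le_max_right _ _
  exact zpow_ne_zero _ h0' (le_antisymm this zero_le)

end Fermat.Agent.S15.M1.Num
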