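import Fermat.Agent.S24.PlaceBasic
import Fermat.Agent.S15.M1.Num.Val

/-!
# S15 / M1 / NUM : a smooth point of a plane model carries exactly one place.

`F = K(j, y)`, `R(j, y) = 0`, `R(a, b) = 0`, `∂R/∂X (a, b) ≠ 0` (`X` = the variable of `y`).  Then there is at most one
place `x` of `F / K` with `j(x) = a`, `y(x) = b`:  the local ring of `K[j, y]` at `(a, b)` is a discrete valuation ring
with uniformiser `j - a`.  Elementary proof, with polynomials `G ∈ K[Y][X]` and `Place.ord` only.
API: Prelude `Place.ord_mul, ord_inv, ord_zpow, ord_one, Place.ext`; `S24/PlaceBasic.lean`: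
`ord_nonneg_of_mem, mem_of_ord_nonneg, mem_iff_ord_nonneg, ord_add_ge, ord_algebraMap`.
-/

set_option autoImplicit false

noncomputable section

namespace Fermat.Agent.S15.M1.Num

open Polynomial AlgebraicCurve Fermat.Agent.S24

variable {K F : Type*} [Field K] [Field F] [Algebra K F]

/-- `G ↦ G(j, y)`. -/
def evF (j y : F) : K[X][X] →+* F :=
  eval₂RingHom ((aeval j : K[X] →ₐ[K] F) : K[X] →+* F) y

/-- `G ↦ G(a, b)`. -/
def evK (a b : K) : K[X][X] →+* K := eval₂RingHom (evalRingHom a) b

theorem evK_eq_ev2 (a b : K) (G : K[X][X]) : evK a b G = ev2 G a b := by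
  rw [evK, coe_eval₂RingHom, ev2, eval_map]

/-- the place `x` is centred at the point `(a, b)`. -/
structure Cen (x : Place K F) (j y : F) (a b : K) : Prop where
  hj : 0 < x.ord (j - algebraMap K F a)
  hy : 0 < x.ord (y - algebraMap K F b)

variable {j y : F} {a b : K}

theorem Cen_val_sub_lt_of_ord_pos (x : Place K F) {z : F} (h : 0 < x.ord z) :
    x.toValuationSubring.valuation z < 1 := by
  have hz : z ≠ 0 := by
    rintro rfl
    rw [Place.ord_zero] at h
    exact lt_irrefl _ h
  have hmem : z ∈ x.toValuationSubring := mem_of_ord_nonneg x hz h.le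
  have hle : x.toValuationSubring.valuation z ≤ 1 :=
    (ValuationSubring.valuation_le_one_iff _ _).2 hmem
  refine lt_of_le_of_ne hle fun h1 => ?_
  have h2 : z⁻¹ ∈ x.toValuationSubring := by
    rw [← ValuationSubring.valuation_le_one_iff, map_inv₀, h1, inv_one]
  have h3 := ord_nonneg_of_mem x h2
  rw [x.ord_inv] at h3
  omega

theorem Cen_val_sub_lt_const (x : Place K F) (c : K) :
    x.toValuationSubring.valuation (algebraMap K F c) ≤ 1 :=
  (ValuationSubring.valuation_le_one_iff _ _).2 (x.algebraMap_mem' c)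

theorem Cen_val_sub_lt_le_one (x : Place K F) {w : F} {w0 : K}
    (hw : x.toValuationSubring.valuation (w - algebraMap K F w0) < 1) :
    x.toValuationSubring.valuation w ≤ 1 := by
  have e : w = (w - algebraMap K F w0) + algebraMap K F w0 := by ring
  rw [e]
  exact Valuation.map_add_le _ hw.le (Cen_val_sub_lt_const x w0)

theorem Cen_val_sub_lt_add (x : Place K F) {u w : F} {u0 w0 : K}
    (hu : x.toValuationSubring.valuation (u - algebraMap K F u0) < 1)
    (hw : x.toValuationSubring.valuation (w - algebraMap K F w0) < 1) :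
    x.toValuationSubring.valuation (u + w - algebraMap K F (u0 + w0)) < 1 := by
  have e : u + w - algebraMap K F (u0 + w0) =
      (u - algebraMap K F u0) + (w - algebraMap K F w0) := by
    rw [map_add]
    ring
  rw [e]
  exact Valuation.map_add_lt _ hu hw

theorem Cen_val_sub_lt_mul (x : Place K F) {u w : F} {u0 w0 : K}
    (hu : x.toValuationSubring.valuation (u - algebraMap K F u0) < 1)
    (hw : x.toValuationSubring.valuation (w - algebraMap K F w0) < 1) :
    x.toValuationSubring.valuation (u * w - algebraMap K F (u0 * w0)) < 1 := by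
  have hw1 := Cen_val_sub_lt_le_one x hw
  have e : u * w - algebraMap K F (u0 * w0) =
      (u - algebraMap K F u0) * w + algebraMap K F u0 * (w - algebraMap K F w0) := by
    rw [map_mul]
    ring
  rw [e]
  apply Valuation.map_add_lt
  · rw [map_mul]
    exact lt_of_le_of_lt (mul_le_of_le_one_right' hw1) hu
  · rw [map_mul]
    exact lt_of_le_of_lt (mul_le_of_le_one_left' (Cen_val_sub_lt_const x u0)) hw

theorem Cen_val_sub_lt_C {x : Place K F} (h : Cen x j y a b) (p : K[X]) :
    x.toValuationSubring.valuation (evF j y (C p) - algebraMap K F (evK a b (C p))) < 1 := by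
  have hX : x.toValuationSubring.valuation
      (evF j y (C (X : K[X])) - algebraMap K F (evK a b (C (X : K[X])))) < 1 := by
    have e1 : evF j y (C (X : K[X])) = j := by simp [evF]
    have e2 : evK a b (C (X : K[X])) = a := by simp [evK]
    rw [e1, e2]
    exact Cen_val_sub_lt_of_ord_pos x h.hj
  induction p using Polynomial.induction_on with
  | C c =>
    have e1 : evF j y (C (C c)) = algebraMap K F c := by simp [evF]
    have e2 : evK a b (C (C c)) = c := by simp [evK]
    rw [e1, e2, sub_self, map_zero]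
    exact zero_lt_one
  | add p q hp hq =>
    rw [map_add, map_add, map_add]
    exact Cen_val_sub_lt_add x hp hq
  | monomial n c ih =>
    have e : (C (C c * X ^ (n + 1)) : K[X][X]) = C (C c * X ^ n) * C X := by
      rw [← map_mul, pow_succ, mul_assoc]
    rw [e, map_mul (evF j y), map_mul (evK a b)]
    exact Cen_val_sub_lt_mul x ih hX

/-- (U1) `G(j, y) ≡ G(a, b)` modulo the maximal ideal of `x`.  Induction on `G` (`Polynomial.induction_on'` twice, or:
the set of the `G` with this property is closed under `+`, `*` and contains `C (C c)`, `C X`, `X`).  Work with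
`V := x.toValuationSubring`, `V.valuation z < 1`; bridge: for `z ≠ 0`, `0 < x.ord z ↔ V.valuation z < 1`
(`z ∈ V` by `mem_of_ord_nonneg`; `z⁻¹ ∉ V` since `x.ord z⁻¹ < 0`, `ord_nonneg_of_mem`;
`ValuationSubring.valuation_lt_one_iff` / `valuation_le_one_iff`, `Valuation.map_add_lt`). -/
theorem Cen.val_sub_lt {x : Place K F} (h : Cen x j y a b) (G : K[X][X]) :
    x.toValuationSubring.valuation (evF j y G - algebraMap K F (evK a b G)) < 1 := by
  have hX : x.toValuationSubring.valuation
      (evF j y (X : K[X][X]) - algebraMap K F (evK a b (X : K[X][X]))) < 1 := by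
    have e1 : evF j y (X : K[X][X]) = y := by simp [evF]
    have e2 : evK a b (X : K[X][X]) = b := by simp [evK]
    rw [e1, e2]
    exact Cen_val_sub_lt_of_ord_pos x h.hy
  induction G using Polynomial.induction_on with
  | C p => exact Cen_val_sub_lt_C h p
  | add p q hp hq =>
    rw [map_add, map_add]
    exact Cen_val_sub_lt_add x hp hq
  | monomial n c ih =>
    have e : (C c * X ^ (n + 1) : K[X][X]) = C c * X ^ n * X := by
      rw [pow_succ, mul_assoc]
    rw [e, map_mul (evF j y), map_mul (evK a b)]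
    exact Cen_val_sub_lt_mul x ih hX

/-- (U1') -/
theorem Cen.ord_eq_zero {x : Place K F} (h : Cen x j y a b) {G : K[X][X]} (hG : evK a b G ≠ 0) :
    evF j y G ≠ 0 ∧ x.ord (evF j y G) = 0 := by
  have h1 := h.val_sub_lt G
  have hc0 : algebraMap K F (evK a b G) ≠ 0 := by
    rwa [Ne, map_eq_zero]
  have hc1 : x.toValuationSubring.valuation (algebraMap K F (evK a b G)) = 1 := by
    apply le_antisymm (Cen_val_sub_lt_const x _)
    have h2 := Cen_val_sub_lt_const x (evK a b G)⁻¹
    rw [map_inv₀, map_inv₀] at h2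
    have h3 : x.toValuationSubring.valuation (algebraMap K F (evK a b G)) ≠ 0 :=
      (Valuation.ne_zero_iff _).2 hc0
    exact (inv_le_one₀ (zero_lt_iff.2 h3)).1 h2
  have hv : x.toValuationSubring.valuation (evF j y G) = 1 := by
    have e : evF j y G = (evF j y G - algebraMap K F (evK a b G)) +
        algebraMap K F (evK a b G) := by ring
    rw [e, Valuation.map_add_eq_of_lt_right _ (by rw [hc1]; exact h1), hc1]
  have hne : evF j y G ≠ 0 := by
    intro h0
    rw [h0, map_zero] at hv
    exact zero_ne_one hv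
  refine ⟨hne, ?_⟩
  have hm1 : evF j y G ∈ x.toValuationSubring :=
    (ValuationSubring.valuation_le_one_iff _ _).1 hv.le
  have hm2 : (evF j y G)⁻¹ ∈ x.toValuationSubring := by
    rw [← ValuationSubring.valuation_le_one_iff, map_inv₀, hv, inv_one]
  have h4 := ord_nonneg_of_mem x hm1
  have h5 := ord_nonneg_of_mem x hm2
  rw [x.ord_inv] at h5
  omega

/-- (U1'') -/
theorem Cen.ord_nonneg {x : Place K F} (h : Cen x j y a b) (G : K[X][X]) : 0 ≤ x.ord (evF j y G) := by
  exact ord_nonneg_of_mem x
    ((ValuationSubring.valuation_le_one_iff _ _).1 (Cen_val_sub_lt_le_one x (h.val_sub_lt G)))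

/-- (U2) division: `G = (X - b) G₁ + (Y - a) G₂(Y)` if `G(a, b) = 0`
(`Polynomial.mul_divByMonic_eq_iff_isRoot`, `modByMonic_X_sub_C_eq_C_eval`, `dvd_iff_isRoot`). -/
theorem exists_div_of_evK_eq_zero {G : K[X][X]} (hG : evK a b G = 0) :
    ∃ (G₁ : K[X][X]) (G₂ : K[X]), G = (X - C (C b)) * G₁ + C ((X - C a) * G₂) := by
  have h1 : G %ₘ (X - C (C b)) + (X - C (C b)) * (G /ₘ (X - C (C b))) = G :=
    modByMonic_add_div G (X - C (C b))
  rw [modByMonic_X_sub_C_eq_C_eval] at h1
  have h2 : (G.eval (C b)).eval a = 0 := by rw [eval_eval_C, ← evK_eq_ev2, hG]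
  obtain ⟨G₂, hG₂⟩ := dvd_iff_isRoot.2 h2
  refine ⟨G /ₘ (X - C (C b)), G₂, ?_⟩
  rw [← hG₂, add_comm]
  exact h1.symm

/-- (U3) the same for `R`, with the value of the cofactor. -/
theorem exists_div_deriv {R : K[X][X]} (hR : evK a b R = 0) :
    ∃ (A : K[X][X]) (B : K[X]), R = (X - C (C b)) * A + C ((X - C a) * B) ∧
      evK a b A = (derivative (R.map (evalRingHom a))).eval b := by
  obtain ⟨A, B, hAB⟩ := exists_div_of_evK_eq_zero hR
  refine ⟨A, B, hAB, ?_⟩
  have h1 : R.map (evalRingHom a) = (X - C b) * A.map (evalRingHom a) := by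
    conv_lhs => rw [hAB]
    simp
  rw [h1, evK_eq_ev2, ev2]
  simp

/-- (U4) one step: `𝔪 = (j - a)` locally at `(a, b)`. -/
theorem exists_step {R : K[X][X]} (hRF : evF j y R = 0) (hR : evK a b R = 0)
    (hs : (derivative (R.map (evalRingHom a))).eval b ≠ 0) {G : K[X][X]} (hG : evK a b G = 0) :
    ∃ U G' : K[X][X], evK a b U ≠ 0 ∧
      evF j y U * evF j y G = (j - algebraMap K F a) * evF j y G' := by
  obtain ⟨A, B, hAB, hA⟩ := exists_div_deriv hR
  obtain ⟨G₁, G₂, hG12⟩ := exists_div_of_evK_eq_zero hG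
  refine ⟨A, A * C G₂ - C B * G₁, by rw [hA]; exact hs, ?_⟩
  have eX : evF j y (X : K[X][X]) = y := by simp [evF]
  have eCC : ∀ c : K, evF j y (C (C c)) = algebraMap K F c := fun c => by simp [evF]
  have eCX : evF j y (C (X : K[X])) = j := by simp [evF]
  have e1 : evF j y R =
      (y - algebraMap K F b) * evF j y A + (j - algebraMap K F a) * evF j y (C B) := by
    conv_lhs => rw [hAB]
    rw [map_add, map_mul, map_sub, eX, eCC, C_mul, map_mul, C_sub, map_sub, eCX, eCC]
  have e2 : evF j y G =
      (y - algebraMap K F b) * evF j y G₁ + (j - algebraMap K F a) * evF j y (C G₂) := by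
    conv_lhs => rw [hG12]
    rw [map_add, map_mul, map_sub, eX, eCC, C_mul, map_mul, C_sub, map_sub, eCX, eCC]
  rw [hRF] at e1
  rw [e2, map_sub, map_mul, map_mul]
  linear_combination (-(evF j y G₁)) * e1

/-- (U5) factorisation `U G = (j - a)^m W`, `U, W` units at `(a, b)`.  Strong induction on `(x.ord (G(j,y))).toNat`
(`Cen.ord_nonneg`): if `G(a,b) ≠ 0` take `m = 0`, `U = 1`, `W = G`; otherwise `exists_step` gives `G'` with
`x.ord (G'(j,y)) = x.ord (G(j,y)) - x.ord (j - a) < x.ord (G(j,y))` (`Cen.ord_eq_zero` for `U`, `Place.ord_mul`). -/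
theorem exists_factor {x : Place K F} (h : Cen x j y a b) {R : K[X][X]} (hRF : evF j y R = 0)
    (hR : evK a b R = 0) (hs : (derivative (R.map (evalRingHom a))).eval b ≠ 0) (G : K[X][X])
    (hG : evF j y G ≠ 0) :
    ∃ (m : ℕ) (U W : K[X][X]), evK a b U ≠ 0 ∧ evK a b W ≠ 0 ∧
      evF j y U * evF j y G = (j - algebraMap K F a) ^ m * evF j y W := by
  have key : ∀ (n : ℕ) (G : K[X][X]), evF j y G ≠ 0 → (x.ord (evF j y G)).toNat ≤ n →
      ∃ (m : ℕ) (U W : K[X][X]), evK a b U ≠ 0 ∧ evK a b W ≠ 0 ∧
        evF j y U * evF j y G = (j - algebraMap K F a) ^ m * evF j y W := by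
    intro n
    induction n with
    | zero =>
      intro G hG hn
      by_cases hGab : evK a b G = 0
      · exfalso
        obtain ⟨U, G', hU, hEq⟩ := exists_step hRF hR hs hGab
        obtain ⟨hU0, hUo⟩ := h.ord_eq_zero hU
        have hja : j - algebraMap K F a ≠ 0 := by
          intro h0
          have := h.hj
          rw [h0, Place.ord_zero] at this
          exact lt_irrefl _ this
        have hG' : evF j y G' ≠ 0 := by
          intro h0
          rw [h0, mul_zero] at hEq
          exact mul_ne_zero hU0 hG hEq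
        have ho := congrArg x.ord hEq
        rw [Place.ord_mul _ hU0 hG, Place.ord_mul _ hja hG', hUo, zero_add] at ho
        have h1 := h.ord_nonneg G'
        have h2 := h.hj
        have h3 := h.ord_nonneg G
        omega
      · exact ⟨0, 1, G, by rw [map_one]; exact one_ne_zero, hGab, by rw [map_one, pow_zero]⟩
    | succ n ih =>
      intro G hG hn
      by_cases hGab : evK a b G = 0
      · obtain ⟨U, G', hU, hEq⟩ := exists_step hRF hR hs hGab
        obtain ⟨hU0, hUo⟩ := h.ord_eq_zero hU
        have hja : j - algebraMap K F a ≠ 0 := by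
          intro h0
          have := h.hj
          rw [h0, Place.ord_zero] at this
          exact lt_irrefl _ this
        have hG' : evF j y G' ≠ 0 := by
          intro h0
          rw [h0, mul_zero] at hEq
          exact mul_ne_zero hU0 hG hEq
        have ho := congrArg x.ord hEq
        rw [Place.ord_mul _ hU0 hG, Place.ord_mul _ hja hG', hUo, zero_add] at ho
        have h1 := h.ord_nonneg G'
        have h2 := h.hj
        have h3 := h.ord_nonneg G
        obtain ⟨m, U', W, hU', hW, hEq'⟩ := ih G' hG' (by omega)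
        refine ⟨m + 1, U' * U, W, by rw [map_mul]; exact mul_ne_zero hU' hU, hW, ?_⟩
        rw [map_mul, mul_assoc, hEq, mul_left_comm, hEq', pow_succ']
        ring
      · exact ⟨0, 1, G, by rw [map_one]; exact one_ne_zero, hGab, by rw [map_one, pow_zero]⟩
  exact key _ G hG le_rfl

/-- the order of `G(j, y)` at any place centred at `(a, b)`, from a factorisation. -/
theorem Cen.ord_of_factor {z : Place K F} (hz : Cen z j y a b) {G U W : K[X][X]} {m : ℕ}
    (hU : evK a b U ≠ 0) (hW : evK a b W ≠ 0) (hG : evF j y G ≠ 0)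
    (hEq : evF j y U * evF j y G = (j - algebraMap K F a) ^ m * evF j y W) :
    z.ord (evF j y G) = m * z.ord (j - algebraMap K F a) := by
  obtain ⟨hU0, hUo⟩ := hz.ord_eq_zero hU
  obtain ⟨hW0, hWo⟩ := hz.ord_eq_zero hW
  have hja : j - algebraMap K F a ≠ 0 := by
    intro h0
    have := hz.hj
    rw [h0, Place.ord_zero] at this
    exact lt_irrefl _ this
  have ho := congrArg z.ord hEq
  rw [Place.ord_mul _ hU0 hG, Place.ord_mul _ (pow_ne_zero m hja) hW0, hUo, hWo, zero_add, add_zero,
    ← zpow_natCast, Place.ord_zpow] at ho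
  exact ho

theorem exists_quot_mem_range {f : F} (hf : f ∈ Algebra.adjoin K ({j, y} : Set F)) :
    ∃ G : K[X][X], evF j y G = f := by
  induction hf using Algebra.adjoin_induction with
  | mem x hx =>
    rcases hx with rfl | hx
    · exact ⟨C X, by simp [evF]⟩
    · rw [Set.mem_singleton_iff] at hx
      subst hx
      exact ⟨X, by simp [evF]⟩
  | algebraMap c => exact ⟨C (C c), by simp [evF]⟩
  | add u v _ _ hu hv =>
    obtain ⟨G, rfl⟩ := hu
    obtain ⟨G', rfl⟩ := hv
    exact ⟨G + G', map_add _ _ _⟩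
  | mul u v _ _ hu hv =>
    obtain ⟨G, rfl⟩ := hu
    obtain ⟨G', rfl⟩ := hv
    exact ⟨G * G', map_mul _ _ _⟩

/-- (U7) every element of `F` is a quotient `G₁(j,y) / G₂(j,y)`
(`IntermediateField.mem_adjoin_iff_div`, `Algebra.adjoin_induction`: the range of `evF j y` is a subring containing
`K`, `j`, `y`). -/
theorem exists_quot (hgen : IntermediateField.adjoin K {j, y} = ⊤) (f : F) :
    ∃ G₁ G₂ : K[X][X], evF j y G₂ ≠ 0 ∧ f = evF j y G₁ / evF j y G₂ := by
  have hf : f ∈ IntermediateField.adjoin K ({j, y} : Set F) := by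
    rw [hgen]
    exact IntermediateField.mem_top
  obtain ⟨r, hr, s, hs, rfl⟩ := IntermediateField.mem_adjoin_iff_div.1 hf
  obtain ⟨G₁, rfl⟩ := exists_quot_mem_range hr
  obtain ⟨G₂, rfl⟩ := exists_quot_mem_range hs
  by_cases h0 : evF j y G₂ = 0
  · refine ⟨0, 1, by rw [map_one]; exact one_ne_zero, ?_⟩
    rw [h0, div_zero, map_zero, zero_div]
  · exact ⟨G₁, G₂, h0, rfl⟩

/-- **Uniqueness of the place at a smooth point.**  For `f = G₁/G₂ ≠ 0`, `exists_factor` (with the place `x`) gives
`m₁, m₂`; for ANY place `z` centred at `(a,b)`: `z.ord f = (m₁ - m₂) * z.ord (j - a)` with `z.ord (j - a) > 0`.  So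
`f ∈ O_x ↔ m₂ ≤ m₁ ↔ f ∈ O_x'`; `Place.ext`, `mem_iff_ord_nonneg`. -/
theorem place_unique (hgen : IntermediateField.adjoin K {j, y} = ⊤) {R : K[X][X]}
    (hRF : evF j y R = 0) (hR : evK a b R = 0)
    (hs : (derivative (R.map (evalRingHom a))).eval b ≠ 0) {x x' : Place K F}
    (h : Cen x j y a b) (h' : Cen x' j y a b) : x = x' := by
  apply Place.ext
  ext f
  by_cases hf : f = 0
  · rw [hf]
    exact ⟨fun _ => zero_mem _, fun _ => zero_mem _⟩
  obtain ⟨G₁, G₂, hG₂, rfl⟩ := exists_quot hgen f
  have hG₁ : evF j y G₁ ≠ 0 := by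
    intro h0
    rw [h0, zero_div] at hf
    exact hf rfl
  obtain ⟨m₁, U₁, W₁, hU₁, hW₁, hE₁⟩ := exists_factor h hRF hR hs G₁ hG₁
  obtain ⟨m₂, U₂, W₂, hU₂, hW₂, hE₂⟩ := exists_factor h hRF hR hs G₂ hG₂
  have main : ∀ z : Place K F, Cen z j y a b →
      (evF j y G₁ / evF j y G₂ ∈ z.toValuationSubring ↔ m₂ ≤ m₁) := by
    intro z hz
    rw [mem_iff_ord_nonneg z hf, div_eq_mul_inv, Place.ord_mul _ hG₁ (inv_ne_zero hG₂),
      Place.ord_inv, hz.ord_of_factor hU₁ hW₁ hG₁ hE₁, hz.ord_of_factor hU₂ hW₂ hG₂ hE₂]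
    have hpos := hz.hj
    constructor
    · intro h0
      by_contra hlt
      have h1 : (m₁ : ℤ) + 1 ≤ m₂ := by omega
      nlinarith
    · intro hle
      have h1 : (m₂ : ℤ) ≤ m₁ := by exact_mod_cast hle
      nlinarith
  rw [main x h, main x' h']

end Fermat.Agent.S15.M1.Num
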