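import Fermat.Agent.S28.A
import Fermat.Agent.S28.B
import Fermat.Agent.S24.FNAdjoin
import Fermat.Agent.S15.M1.Num.Count
import Fermat.Agent.S15.M1.Num.Uniq

/-!
# S15 / M1 / NUM : the polynomials `Φ_p` (roots `j(t^{p²})`, `j(ζ^b t)`) and `V_p` (roots
`p¹² E₄³(t^{p²})/Δ(t^p)`, `E₄³(ζ^b t)/Δ(t^p)`) over `Kbar`, from block B of S28.

The variable of the Laurent series is `t`, `q = t^p`, `J = jBase p Kbar = j(t^p)`.
`S28.rootFam p ζ`, `S28.numFam p ζ : Option (Fin p) → LaurentSeries Kbar` are the two families of roots.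
-/

set_option autoImplicit false

noncomputable section

namespace Fermat.Agent.S15.M1.Num

open Polynomial ModularCurve Fermat.Agent.S24 Fermat.Agent.S28

/-- `Kbar[Y] → Kbar((t))`, `Y ↦ j(t^p)`. -/
abbrev aJ (p : ℕ) [NeZero p] : Kbar[X] →+* LaurentSeries Kbar :=
  ((aeval (jBase p Kbar) : Kbar[X] →ₐ[Kbar] LaurentSeries Kbar) : Kbar[X] →+* LaurentSeries Kbar)

section Exist

variable (p : ℕ) [NeZero p]

/-- `Φ_p`: take `Φ` from `S28.statementB S28.statementA p hp` and `R := Φ.map (mapRingHom (Int.castRingHom Kbar))`;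
`(aJ p).comp (mapRingHom (Int.castRingHom Kbar)) = evBase p Kbar` (`Polynomial.ringHom_ext`), `Polynomial.map_map`,
`S28.PhiB_eq`, `S28.PhiB`. -/
theorem exists_PhiK (hp : p.Prime) : ∃ R : Kbar[X][X], R.Monic ∧
    ∀ ζ : Kbarˣ, IsPrimitiveRoot ζ p → R.map (aJ p) = ∏ s, (X - C (rootFam p ζ s)) := by
  obtain ⟨Φ, U, G, m, c, hm, hΦ, -, -, -, -, hId⟩ := statementB statementA p hp
  refine ⟨Φ.map (mapRingHom (Int.castRingHom Kbar)), hΦ.map _, fun ζ hζ => ?_⟩
  have hcomp : (aJ p).comp (mapRingHom (Int.castRingHom Kbar)) = evBase p Kbar := by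
    apply Polynomial.ringHom_ext
    · intro a
      simp [aJ, evBase]
    · simp [aJ, evBase]
  rw [Polynomial.map_map, hcomp, (hId Kbar ζ hζ).1, ← PhiB_eq, PhiB]

/-- `V_p`: as in `S28.statementB_aux`: `hsum := sum_zpow_of_isPrimitiveRoot p hp ζ hζ`,
`powerSum_mem p ζ statementA hp hsum n 0` shows `∑ s, numFam p ζ s ^ n ∈ subalgJ p Kbar`,
`coeff_prod_X_sub_C_mem (subalgJ p Kbar) (numFam p ζ)` gives the coefficients in `subalgJ p Kbar`
`= range (aeval (jBase p Kbar) : ℚ[X] → _) ⊆ range (aJ p)` (`g ↦ g.map (algebraMap ℚ Kbar)`, `aeval_map_algebraMap`);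
`Polynomial.lifts_iff_coeff_lifts`, `Polynomial.mem_lifts`. -/
theorem exists_VK (hp : p.Prime) (ζ : Kbarˣ) (hζ : IsPrimitiveRoot ζ p) :
    ∃ R : Kbar[X][X], R.map (aJ p) = ∏ s, (X - C (numFam p ζ s)) := by
  have hsum := sum_zpow_of_isPrimitiveRoot p hp ζ hζ
  have hP : ∀ n, ∑ s, numFam p ζ s ^ n ∈ subalgJ p Kbar := fun n => by
    obtain ⟨g, hg⟩ := powerSum_mem p ζ statementA hp hsum n 0
    simp only [pow_zero, mul_one] at hg
    rw [hg]
    exact evBase_mem_subalgJ p Kbar g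
  have hc := coeff_prod_X_sub_C_mem (subalgJ p Kbar) (numFam p ζ) hP
  have hl : (∏ s, (X - C (numFam p ζ s))) ∈ Polynomial.lifts (aJ p) := by
    rw [Polynomial.lifts_iff_coeff_lifts]
    intro n
    obtain ⟨g, hg⟩ := hc n
    refine ⟨g.map (algebraMap ℚ Kbar), ?_⟩
    rw [← hg]
    show aeval (jBase p Kbar) (g.map (algebraMap ℚ Kbar)) = aeval (jBase p Kbar) g
    rw [aeval_def, aeval_def, eval₂_map]
    congr 1
    exact Subsingleton.elim _ _
  exact (Polynomial.mem_lifts _).mp hl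

end Exist

/-! ### leading terms -/

section Mono

variable (p : ℕ) [NeZero p] {Λ : Type*} [CommRing Λ]

theorem Poly_isMono_toL_E3_aux : IsMono (toL Λ E3) 0 1 := by
  refine ⟨E3.map (Int.castRingHom Λ), ?_, ?_⟩
  · rw [← PowerSeries.coeff_zero_eq_constantCoeff_apply, PowerSeries.coeff_map,
      PowerSeries.coeff_zero_eq_constantCoeff_apply, E3, map_pow, constantCoeff_eisenstein4,
      one_pow]
    simp
  · rw [toL_apply]
    have h1 : (HahnSeries.single (0 : ℤ) (1 : Λ)) = 1 := rfl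
    rw [h1, one_mul]

theorem isMono_jqModC : IsMono (jqModC Λ) (-1) 1 := by
  rw [jqModC_eq]
  exact ((Poly_isMono_toL_E3_aux (Λ := Λ)).mul (IsMono.DlLinv (Λ := Λ))).congr (by ring) (by ring)

theorem isMono_toL_E3 : IsMono (toL Λ E3) 0 1 := Poly_isMono_toL_E3_aux

/-- `IsMono.qExpand`. -/
theorem isMono_jBase : IsMono (jBase p Λ) (-(p : ℤ)) 1 :=
  ((isMono_jqModC (Λ := Λ)).qExpand p).congr (by ring) rfl

/-- `IsMono.qExpand` twice. -/
theorem isMono_rootFam_none (ζ : Λˣ) : IsMono (rootFam p ζ none) (-((p : ℤ) ^ 2)) 1 :=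
  (((isMono_jqModC (Λ := Λ)).qExpand p).qExpand p).congr (by ring) rfl

/-- `IsMono.twist`. -/
theorem exists_isMono_rootFam_some (ζ : Λˣ) (i : Fin p) :
    ∃ c : Λ, IsUnit c ∧ IsMono (rootFam p ζ (some i)) (-1) c :=
  ⟨_, (Units.isUnit _).mul isUnit_one, (isMono_jqModC (Λ := Λ)).twist (ζ ^ (i : ℕ))⟩

/-- `IsMono.mul`, `IsMono.natCast`, `IsMono.pow`, `IsMono.qExpand`, `IsMono.twist`, `IsMono.DlLinv`, `IsMono.congr`. -/
theorem exists_isMono_numFam (ζ : Λˣ) (hpΛ : IsUnit (p : Λ)) (s : Option (Fin p)) :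
    ∃ c : Λ, IsUnit c ∧ IsMono (numFam p ζ s) (-(p : ℤ)) c := by
  cases s with
  | none =>
    refine ⟨(p : Λ) ^ 12, hpΛ.pow 12, ?_⟩
    have := (((IsMono.natCast (Λ := Λ) p).pow 12).mul
      ((isMono_toL_E3 (Λ := Λ)).qExpand p |>.qExpand p)).mul ((IsMono.DlLinv (Λ := Λ)).qExpand p)
    exact this.congr (by ring) (by ring)
  | some b =>
    refine ⟨1, isUnit_one, ?_⟩
    have := ((isMono_toL_E3 (Λ := Λ)).twist (ζ ^ (b : ℕ))).mul
      ((IsMono.DlLinv (Λ := Λ)).qExpand p)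
    exact this.congr (by ring) (by simp)

theorem coeffMap_numFam {R S : Type*} [CommRing R] [CommRing S] (f : R →+* S) (ζ : Rˣ)
    (s : Option (Fin p)) :
    coeffMap f (numFam p ζ s) = numFam p (Units.map (f : R →* S) ζ) s := by
  cases s with
  | none =>
    rw [numFam, numFam, map_mul, map_mul, map_pow, map_natCast, coeffMap_qExpand,
      coeffMap_qExpand, coeffMap_qExpand, coeffMap_toL, coeffMap_DlLinv]
  | some b =>
    rw [numFam, numFam, map_mul, coeffMap_twist, coeffMap_qExpand, coeffMap_toL,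
      coeffMap_DlLinv, map_pow]

end Mono

section Lead

variable (A : ValuationSubring Kbar)

/-- a series over `A` with unit leading coefficient (`IsMono.coeff_self`, `IsMono.coeff_of_lt`, `coeffMap_coeff`,
`ValuationSubring.valuation_le_one`, `ValuationSubring.valuation_eq_one_iff`). -/
theorem lead_of_isMono {x : LaurentSeries A} {k : ℤ} {c : A} (h : IsMono x k c) (hc : IsUnit c) :
    Lead A.valuation (coeffMap A.subtype x) k := by
  refine ⟨?_, fun m hm => ?_, fun m => ?_⟩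
  · rw [coeffMap_coeff, h.coeff_self]
    exact (A.valuation_eq_one_iff c).1 hc
  · rw [coeffMap_coeff, h.coeff_of_lt hm, map_zero]
  · rw [coeffMap_coeff]
    exact A.valuation_le_one _

/-- a root of unity is a unit of `A` (`ζ` and `ζ⁻¹ = ζ^(p-1)` are integral over `ℤ`, `A` is integrally closed;
or: `A.valuation ζ ^ p = 1` so `A.valuation ζ = 1` (`pow_eq_one_iff`), `ValuationSubring.valuation_eq_one_iff`). -/
theorem exists_unit_lift {p : ℕ} [NeZero p] (ζ : Kbarˣ) (hζ : ζ ^ p = 1) :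
    ∃ ζA : Aˣ, Units.map (A.subtype : A →* Kbar) ζA = ζ := by
  have hp0 : p ≠ 0 := NeZero.ne p
  have h1 : A.valuation (ζ : Kbar) ^ p = 1 := by
    rw [← map_pow, ← Units.val_pow_eq_pow_val, hζ, Units.val_one, map_one]
  have h2 : A.valuation (ζ : Kbar) = 1 := (pow_eq_one_iff.1 h1).resolve_right hp0
  have hmem : (ζ : Kbar) ∈ A := (A.valuation_le_one_iff _).1 h2.le
  have hu : IsUnit (⟨(ζ : Kbar), hmem⟩ : A) := (A.valuation_eq_one_iff _).2 h2
  refine ⟨hu.unit, ?_⟩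
  ext
  rfl

variable (p : ℕ) [NeZero p]

theorem lead_jBase : Lead A.valuation (jBase p Kbar) (-(p : ℤ)) := by
  rw [← coeffMap_jBase A.subtype p]
  exact lead_of_isMono A (isMono_jBase p) isUnit_one

theorem lead_rootFam_none (ζ : Kbarˣ) (hζ : ζ ^ p = 1) :
    Lead A.valuation (rootFam p ζ none) (-((p : ℤ) ^ 2)) := by
  obtain ⟨ζA, rfl⟩ := exists_unit_lift A ζ hζ
  rw [← coeffMap_rootFam A.subtype p ζA none]
  exact lead_of_isMono A (isMono_rootFam_none p ζA) isUnit_one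

theorem lead_rootFam_some (ζ : Kbarˣ) (hζ : ζ ^ p = 1) (i : Fin p) :
    Lead A.valuation (rootFam p ζ (some i)) (-1) := by
  obtain ⟨ζA, rfl⟩ := exists_unit_lift A ζ hζ
  rw [← coeffMap_rootFam A.subtype p ζA (some i)]
  obtain ⟨c, hc, h⟩ := exists_isMono_rootFam_some p ζA i
  exact lead_of_isMono A h hc

/-- `p` is a unit of `A`. -/
theorem isUnit_natCast_of_val {n : ℕ} (hn : A.valuation (n : Kbar) = 1) : IsUnit (n : A) := by
  rw [A.valuation_eq_one_iff]
  push_cast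
  exact hn

theorem lead_numFam (ζ : Kbarˣ) (hζ : ζ ^ p = 1) (hpA : A.valuation (p : Kbar) = 1)
    (s : Option (Fin p)) : Lead A.valuation (numFam p ζ s) (-(p : ℤ)) := by
  obtain ⟨ζA, rfl⟩ := exists_unit_lift A ζ hζ
  rw [← coeffMap_numFam p A.subtype ζA s]
  obtain ⟨c, hc, h⟩ := exists_isMono_numFam p ζA (isUnit_natCast_of_val A hpA) s
  exact lead_of_isMono A h hc

/-- the parameter `t₀` (`IsAlgClosed.exists_pow_nat_eq`; `a ∉ A` means `1 < A.valuation a`:
`ValuationSubring.valuation_le_one_iff`). -/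
theorem exists_setup {a : Kbar} (ha : a ∉ A) :
    ∃ t₀ : Kbar, Setup A.valuation t₀ a (jBase p Kbar) p := by
  have hp0 : p ≠ 0 := NeZero.ne p
  have ha0 : a ≠ 0 := by
    rintro rfl
    exact ha A.zero_mem
  have hva : 1 < A.valuation a := by
    by_contra hle
    exact ha ((A.valuation_le_one_iff a).1 (not_lt.1 hle))
  obtain ⟨t₀, ht₀⟩ := IsAlgClosed.exists_pow_nat_eq a⁻¹ (Nat.pos_of_ne_zero hp0)
  have ht0 : t₀ ≠ 0 := by
    rintro rfl
    rw [zero_pow hp0] at ht₀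
    exact inv_ne_zero ha0 ht₀.symm
  refine ⟨t₀, Nat.pos_of_ne_zero hp0, lead_jBase A p, ht0, ?_, ?_⟩
  · by_contra hge
    rw [not_lt] at hge
    have h1 : 1 ≤ A.valuation t₀ ^ p := one_le_pow₀ hge
    rw [← map_pow, ht₀, map_inv₀] at h1
    have h2 : (A.valuation a)⁻¹ < 1 := inv_lt_one_of_one_lt₀ hva
    exact absurd h1 (not_le.2 h2)
  · rw [ht₀, mul_inv_cancel₀ ha0]

end Lead

end Fermat.Agent.S15.M1.Num
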